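import Fermat.Agent.S31.Defs
import Fermat.Prelude.Def_HeckeGalois_EichlerShimura

/-!
# Cell A2 / route B' (helper493): the quadratic Frobenius relation and traces of powers

Pure algebra.  If `σ² - a σ + d = 0` on a module then `P_j(a, d) σ^j = σ^(2j) + d^j`, where
`P_j = powTr a d j` is the universal polynomial for the trace of a `j`-th power in rank two
(row S31, `Fermat.Agent.S31.powTr`).  Stated for a sequence `u k = σ^k x` so that no inverse and no
noncommutative ring is needed; then specialised to the Prelude predicate `FrobeniusQuadratic`.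
-/

set_option autoImplicit false

namespace Fermat.Agent.A2.H493

open Fermat.Agent.S31

/-- Sequence form: if `a • u (k+1) = u (k+2) + d • u k` for all `k` then
`powTr a d j • u (j + k) = u (2 j + k) + d ^ j • u k`. -/
theorem powTr_smul_seq {R M : Type*} [CommRing R] [AddCommGroup M] [Module R M]
    (u : ℕ → M) (a d : R) (h : ∀ k, a • u (k + 1) = u (k + 2) + d • u k) :
    ∀ j k, powTr a d j • u (j + k) = u (2 * j + k) + d ^ j • u k := by
  intro j
  induction j using Nat.twoStepInduction with
  | zero =>
    intro k
    simp only [powTr, Nat.zero_add, Nat.mul_zero, pow_zero, one_smul, two_smul]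
  | one =>
    intro k
    have := h k
    simp only [powTr, pow_one]
    rw [show 1 + k = k + 1 by omega, show 2 * 1 + k = k + 2 by omega]
    exact this
  | more j ih0 ih1 =>
    intro k
    have e1 := ih1 (k + 1)
    have e0 := ih0 (k + 2)
    have h1 := h (2 * j + k + 2)
    have h2 := h k
    rw [show j + 1 + (k + 1) = j + 2 + k by omega,
      show 2 * (j + 1) + (k + 1) = 2 * j + k + 2 + 1 by omega] at e1
    rw [show j + (k + 2) = j + 2 + k by omega,
      show 2 * j + (k + 2) = 2 * j + k + 2 by omega] at e0
    rw [show 2 * (j + 2) + k = 2 * j + k + 2 + 2 by omega]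
    have hP : powTr a d (j + 2) = a * powTr a d (j + 1) - d * powTr a d j := rfl
    rw [hP, sub_smul, mul_smul, mul_smul, e1, e0, smul_add, smul_add, h1,
      smul_comm a (d ^ (j + 1)) (u (k + 1)), h2, smul_add, smul_smul d (d ^ j),
      smul_smul (d ^ (j + 1)) d, ← pow_succ, ← pow_succ']
    abel

end Fermat.Agent.A2.H493
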