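import Fermat.Agent.A2.H493.Faith
import Fermat.Agent.A2.H493.FrobAlg
import Fermat.Agent.S30.H990.Cyclo

/-!
# Cell A2 / route B' (helper493): the finite-level core

`J` is a `HeckeAlg`-module with a commuting action of `G_ℚ` (think `JZero N`).  From

* `FrobeniusQuadratic N p J` (the Eichler–Shimura relation on `p`-power torsion, output of S37),
* smoothness of the Galois action on `p`-power torsion,
* `PeriodHecke N fac` and a `KummerSystem` (the tower interface of row S30),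

we get, for every `n`, congruences modulo `p ^ n` **in the Hecke algebra** between the elements
`powTr T_ℓ ℓ j` (= "trace of the `j`-th power of Frobenius at `ℓ`"):

* `exists_field_unipotent`: if `(τ - 1)² = 0` on `J[p^∞]` and `τ` is in an inertia group at a prime
  `q ≠ p`, then `powTr T_ℓ ℓ j ≡ 2` and `ℓ ^ j ≡ 1` whenever `Frob_ℓ ^ j` approximates `τ`;
* `exists_field_unramified`: if `τ` acts trivially on `J[p^∞]` (and is in an inertia group at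
  `q ≠ p`), then `powTr T_ℓ ℓ j ≡ powTr T_ℓ' ℓ' j'` whenever `Frob_ℓ ^ j` approximates `g` and
  `Frob_ℓ' ^ j'` approximates `g τ`.
-/

set_option autoImplicit false
set_option linter.unusedSectionVars false

noncomputable section

namespace Fermat.Agent.A2.H493

open CongruenceSubgroup ModularCurve ModularCurve.Period Fermat.Agent.S30.H709
  Fermat.Agent.S31 Fermat.Agent.S55.H414
open scoped MatrixGroups

/-! ### Integers and `p`-adic integers -/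

theorem int_dvd_of_mem_span (p : ℕ) [Fact p.Prime] (a : ℤ) (n : ℕ)
    (h : (a : ℤ_[p]) ∈ Ideal.span {(p : ℤ_[p]) ^ n}) : ((p ^ n : ℕ) : ℤ) ∣ a := by
  rw [← PadicInt.ker_toZModPow, RingHom.mem_ker, map_intCast] at h
  exact (ZMod.intCast_zmod_eq_zero_iff_dvd a (p ^ n)).mp h

/-- Two integers congruent modulo `m` act in the same way on an element killed by `m`. -/
theorem zsmul_eq_of_dvd_sub {M : Type*} [AddCommGroup M] {m : ℕ} {a b : ℤ} (h : (m : ℤ) ∣ a - b)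
    {z : M} (hz : m • z = 0) : a • z = b • z := by
  obtain ⟨k, hk⟩ := h
  have : a = b + (m : ℤ) * k := by rw [← hk]; ring
  rw [this, add_smul, mul_comm, mul_smul, natCast_zsmul, hz, smul_zero, add_zero]

/-! ### The Galois side -/

section Galois

variable {J : Type*} [AddCommGroup J] [Module HeckeAlg J] [DistribMulAction GQ J]
  [SMulCommClass GQ HeckeAlg J]

/-- The additive endomorphism of `J` given by an element of `HeckeAlg`. -/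
abbrev opOf (J : Type*) [AddCommGroup J] [Module HeckeAlg J] (u : HeckeAlg) : J →+ J :=
  DistribSMul.toAddMonoidHom J u

omit [Module HeckeAlg J] [SMulCommClass GQ HeckeAlg J] in
theorem group_smul_nsmul (g : GQ) (m : ℕ) (x : J) : g • (m • x) = m • (g • x) :=
  map_nsmul (DistribSMul.toAddMonoidHom J g) m x

omit [Module HeckeAlg J] [SMulCommClass GQ HeckeAlg J] in
theorem ptors_group_smul {p : ℕ} (g : GQ) {x : J} (hx : ∃ n : ℕ, p ^ n • x = 0) :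
    ∃ n : ℕ, p ^ n • (g • x) = 0 := by
  obtain ⟨n, hn⟩ := hx
  exact ⟨n, by rw [← group_smul_nsmul, hn, smul_zero]⟩

/-- `powTr T_ℓ ℓ j = σ ^ j + ℓ ^ j σ ^ (-j)` on `p`-power torsion, for a Frobenius `σ` at `ℓ`. -/
theorem powTr_smul_eq {N p : ℕ}
    (hfrob : FrobeniusQuadratic (K := ℚ) (L := AlgebraicClosure ℚ) N p J)
    {ℓ : ℕ} (hℓ : ℓ.Prime) (hℓNp : ¬ ℓ ∣ N * p)
    (B : ValuationSubring (AlgebraicClosure ℚ)) (hB : B.LiesOverPrime ℓ) (σ : GQ)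
    (hσ : B.IsFrobeniusAt σ ℓ) (j : ℕ) (x : J) (hx : ∃ n : ℕ, p ^ n • x = 0) :
    powTr (heckeGen ⟨ℓ, hℓ⟩) (ℓ : HeckeAlg) j • x = σ ^ j • x + ℓ ^ j • ((σ ^ j)⁻¹ • x) := by
  set x₀ : J := (σ ^ j)⁻¹ • x with hx₀
  have hx₀t : ∃ n : ℕ, p ^ n • x₀ = 0 := ptors_group_smul _ hx
  have hrec : ∀ k, heckeGen ⟨ℓ, hℓ⟩ • (σ ^ (k + 1) • x₀)
      = σ ^ (k + 2) • x₀ + (ℓ : HeckeAlg) • (σ ^ k • x₀) := by
    intro k
    have h := hfrob ℓ hℓ hℓNp B hB σ hσ (σ ^ k • x₀) (ptors_group_smul _ hx₀t)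
    rw [Nat.cast_smul_eq_nsmul, pow_succ' σ (k + 1), pow_succ' σ k]
    simp only [mul_smul]
    rw [sub_add_eq_add_sub, sub_eq_zero] at h
    exact h.symm
  have key := powTr_smul_seq (fun k => σ ^ k • x₀) (heckeGen ⟨ℓ, hℓ⟩) (ℓ : HeckeAlg) hrec j 0
  simp only [add_zero, pow_zero, one_smul] at key
  have h1 : σ ^ j • x₀ = x := by rw [hx₀, smul_inv_smul]
  have h2 : σ ^ (2 * j) • x₀ = σ ^ j • x := by
    rw [two_mul, pow_add, mul_smul, h1]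
  rw [h1, h2, ← Nat.cast_pow, Nat.cast_smul_eq_nsmul] at key
  exact key

omit [Module HeckeAlg J] [SMulCommClass GQ HeckeAlg J] in
/-- A finite family of `p`-power torsion points is fixed by the Galois group of a finite
extension. -/
theorem exists_field_fixing {p : ℕ}
    (hsm : ∀ x : J, (∃ n : ℕ, p ^ n • x = 0) →
      ∃ L : IntermediateField ℚ (AlgebraicClosure ℚ), FiniteDimensional ℚ L ∧
        ∀ σ : GQ, (∀ y ∈ L, σ y = y) → σ • x = x)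
    {ι : Type*} [Finite ι] (x : ι → J) (hx : ∀ i, ∃ n : ℕ, p ^ n • x i = 0) :
    ∃ E : IntermediateField ℚ (AlgebraicClosure ℚ), FiniteDimensional ℚ E ∧
      ∀ h : GQ, (∀ y ∈ E, h y = y) → ∀ i, h • x i = x i := by
  choose L hLfin hL using fun i => hsm (x i) (hx i)
  refine ⟨⨆ i, L i, IntermediateField.finiteDimensional_iSup_of_finite, fun h hh i => ?_⟩
  exact hL i h fun y hy => hh y (le_iSup L i hy)

/-- Evaluation of `powTr T_ℓ ℓ j` on a point `x`, when `σ ^ j` agrees with `g` on a field `E`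
whose Galois group fixes `x` and `g⁻¹ x`. -/
theorem powTr_smul_eq_of_agree {N p : ℕ}
    (hfrob : FrobeniusQuadratic (K := ℚ) (L := AlgebraicClosure ℚ) N p J)
    {ℓ : ℕ} (hℓ : ℓ.Prime) (hℓNp : ¬ ℓ ∣ N * p)
    (B : ValuationSubring (AlgebraicClosure ℚ)) (hB : B.LiesOverPrime ℓ) (σ : GQ)
    (hσ : B.IsFrobeniusAt σ ℓ) (j : ℕ) (g : GQ) (E : IntermediateField ℚ (AlgebraicClosure ℚ))
    (hj : ∀ y ∈ E, (σ ^ j) y = g y) (x : J) (hx : ∃ n : ℕ, p ^ n • x = 0)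
    (hfix : ∀ h : GQ, (∀ y ∈ E, h y = y) → h • x = x)
    (hfix' : ∀ h : GQ, (∀ y ∈ E, h y = y) → h • (g⁻¹ • x) = g⁻¹ • x) :
    powTr (heckeGen ⟨ℓ, hℓ⟩) (ℓ : HeckeAlg) j • x = g • x + ℓ ^ j • (g⁻¹ • x) := by
  rw [powTr_smul_eq hfrob hℓ hℓNp B hB σ hσ j x hx]
  have hh : ∀ y ∈ E, (g⁻¹ * σ ^ j) y = y := by
    intro y hy
    rw [AlgEquiv.mul_apply, hj y hy]
    exact g.symm_apply_apply y
  have h1 : σ ^ j • x = g • x := by
    have : σ ^ j = g * (g⁻¹ * σ ^ j) := by group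
    rw [this, mul_smul, hfix _ hh]
  have h2 : (σ ^ j)⁻¹ • x = g⁻¹ • x := by
    have e := hfix' _ hh
    have : (σ ^ j)⁻¹ = (g⁻¹ * σ ^ j)⁻¹ * g⁻¹ := by group
    rw [this, mul_smul]
    exact inv_smul_eq_iff.mpr e.symm
  rw [h1, h2]

end Galois

/-! ### The cyclotomic character at finite level -/

section Cyclo

variable (p : ℕ) [Fact p.Prime]

/-- If `σ ^ j` agrees with `g` on `ℚ(ζ_{p^m})`, for a Frobenius `σ` at `ℓ ≠ p`, then
`ℓ ^ j ≡ χ(g)` modulo `p ^ m`. -/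
theorem cyclo_pow_sub_mem (m : ℕ) {ℓ : ℕ} (hℓ : ℓ.Prime) (hℓp : ℓ ≠ p)
    (B : ValuationSubring (AlgebraicClosure ℚ)) (hB : B.LiesOverPrime ℓ) (σ : GQ)
    (hσ : B.IsFrobeniusAt σ ℓ) (j : ℕ) (g : GQ)
    (hj : ∀ y ∈ cycloLevel (p ^ m), (σ ^ j) y = g y) :
    (ℓ : ℤ_[p]) ^ j - ((Fermat.Agent.S30.H990.cycloZp p g : ℤ_[p]ˣ) : ℤ_[p])
      ∈ Ideal.span {(p : ℤ_[p]) ^ m} := by
  have hh : ∀ y ∈ cycloLevel (p ^ m), (g⁻¹ * σ ^ j) y = y := by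
    intro y hy
    rw [AlgEquiv.mul_apply, hj y hy]
    exact g.symm_apply_apply y
  have h1 := Fermat.Agent.S30.H990.cycloZp_sub_one_mem p m (g⁻¹ * σ ^ j) hh
  have h2 : (ℓ : ℤ_[p]) ^ j
      = ((Fermat.Agent.S30.H990.cycloZp p g : ℤ_[p]ˣ) : ℤ_[p]) *
        ((Fermat.Agent.S30.H990.cycloZp p (g⁻¹ * σ ^ j) : ℤ_[p]ˣ) : ℤ_[p]) := by
    rw [← Units.val_mul, ← map_mul, mul_inv_cancel_left, map_pow, Units.val_pow_eq_pow_val,
      Fermat.Agent.S30.H990.cycloZp_frobenius p hℓ hℓp B hB σ hσ]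
  have h3 : (ℓ : ℤ_[p]) ^ j - ((Fermat.Agent.S30.H990.cycloZp p g : ℤ_[p]ˣ) : ℤ_[p])
      = ((Fermat.Agent.S30.H990.cycloZp p g : ℤ_[p]ˣ) : ℤ_[p]) *
        (((Fermat.Agent.S30.H990.cycloZp p (g⁻¹ * σ ^ j) : ℤ_[p]ˣ) : ℤ_[p]) - 1) := by
    rw [h2]; ring
  rw [h3]
  exact Ideal.mul_mem_left _ _ h1

end Cyclo

/-! ### Compatibility of the elements `powTr` -/

section PowCompat

variable {N : ℕ} [NeZero N] {fac : ℕ → Gamma0 N → Multiset (Gamma0 N)} {S : Set ℕ} {p : ℕ}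
  {J : Type*} [AddCommGroup J] [Module HeckeAlg J]

theorem compat_powTr (K : KummerSystem N fac S p J (fun ℓ => opOf J (heckeGen ℓ)))
    (hPH : PeriodHecke N fac) (hNS : ∀ q : ℕ, q.Prime → q ∣ N → q ∈ S)
    {ℓ : ℕ} (hℓ : ℓ.Prime) (hℓN : ¬ ℓ ∣ N) (hℓS : ℓ ∉ S) (j : ℕ) :
    Compat K hPH hNS (opOf J (powTr (heckeGen ⟨ℓ, hℓ⟩) (ℓ : HeckeAlg) j))
      (powTr (CuspForm.heckeAlgebra.T hℓ hℓN hℓS) (ℓ : CuspForm.heckeAlgebra N 2 S) j) := by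
  induction j using Nat.twoStepInduction with
  | zero =>
    have h := Compat.natCast (K := K) (hPH := hPH) (hNS := hNS) 2 (u := opOf J (2 : HeckeAlg))
      (fun x => by
        show (2 : HeckeAlg) • x = 2 • x
        rw [two_smul, two_smul])
    rw [Nat.cast_ofNat] at h
    exact h
  | one => exact Compat.hecke (K := K) (hPH := hPH) (hNS := hNS) hℓ hℓN hℓS
  | more j ih0 ih1 =>
    have hd : Compat K hPH hNS (opOf J (ℓ : HeckeAlg)) (ℓ : CuspForm.heckeAlgebra N 2 S) :=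
      Compat.natCast ℓ (fun x => Nat.cast_smul_eq_nsmul _ _ _)
    have ha : Compat K hPH hNS (opOf J (heckeGen ⟨ℓ, hℓ⟩)) (CuspForm.heckeAlgebra.T hℓ hℓN hℓS) :=
      Compat.hecke (K := K) (hPH := hPH) (hNS := hNS) hℓ hℓN hℓS
    refine ((ha.comp ih1).sub (hd.comp ih0)).of_eq fun x => ?_
    show (heckeGen ⟨ℓ, hℓ⟩ * powTr (heckeGen ⟨ℓ, hℓ⟩) (ℓ : HeckeAlg) (j + 1)
        - (ℓ : HeckeAlg) * powTr (heckeGen ⟨ℓ, hℓ⟩) (ℓ : HeckeAlg) j) • x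
      = heckeGen ⟨ℓ, hℓ⟩ • (powTr (heckeGen ⟨ℓ, hℓ⟩) (ℓ : HeckeAlg) (j + 1) • x)
        - (ℓ : HeckeAlg) • (powTr (heckeGen ⟨ℓ, hℓ⟩) (ℓ : HeckeAlg) j • x)
    rw [sub_smul, mul_smul, mul_smul]

end PowCompat

/-! ### The finite-level congruences in the Hecke algebra -/

section Level

variable {N : ℕ} [NeZero N] {fac : ℕ → Gamma0 N → Multiset (Gamma0 N)} {S : Finset ℕ} {p : ℕ}
  {J : Type*} [AddCommGroup J] [Module HeckeAlg J] [DistribMulAction GQ J]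
  [SMulCommClass GQ HeckeAlg J]

/-- `τ` lies in an inertia group at a prime different from `p`. -/
def IsInertialAway (p : ℕ) (τ : GQ) : Prop :=
  ∃ q : ℕ, q.Prime ∧ q ≠ p ∧ ∃ B : ValuationSubring (AlgebraicClosure ℚ),
    B.LiesOverPrime q ∧ τ ∈ B.inertiaSubgroupIn ℚ

theorem cycloZp_eq_one_of_isInertialAway (p : ℕ) [Fact p.Prime] {τ : GQ}
    (hτ : IsInertialAway p τ) : Fermat.Agent.S30.H990.cycloZp p τ = 1 := by
  obtain ⟨q, hq, hqp, B, hB, hτB⟩ := hτ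
  exact Fermat.Agent.S30.H990.cycloZp_inertia p hq hqp B hB τ hτB

/-- **Unipotent case.**  If `(τ - 1)² = 0` on the `p`-power torsion of `J` and `τ` is in an
inertia group at a prime `≠ p`, then for every `n` there is a finite extension `E` such that
`powTr T_ℓ ℓ j ≡ 2` and `ℓ ^ j ≡ 1` modulo `p ^ n` whenever `Frob_ℓ ^ j` agrees with `τ` on `E`. -/
theorem exists_field_unipotent (hp : p.Prime) (hpS : p ∈ S)
    (hNS : ∀ q : ℕ, q.Prime → q ∣ N → q ∈ (↑S : Set ℕ))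
    (hfrob : FrobeniusQuadratic (K := ℚ) (L := AlgebraicClosure ℚ) N p J)
    (hsm : ∀ x : J, (∃ n : ℕ, p ^ n • x = 0) →
      ∃ L : IntermediateField ℚ (AlgebraicClosure ℚ), FiniteDimensional ℚ L ∧
        ∀ σ : GQ, (∀ y ∈ L, σ y = y) → σ • x = x)
    (hPH : PeriodHecke N fac)
    (K : KummerSystem N fac (↑S : Set ℕ) p J (fun ℓ => opOf J (heckeGen ℓ)))
    (n : ℕ) (τ : GQ) (hτ : IsInertialAway p τ)
    (hτ2 : ∀ x : J, (∃ n : ℕ, p ^ n • x = 0) → τ • (τ • x - x) = τ • x - x) :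
    ∃ E : IntermediateField ℚ (AlgebraicClosure ℚ), FiniteDimensional ℚ E ∧
      ∀ {ℓ : ℕ} (hℓ : ℓ.Prime) (hℓN : ¬ ℓ ∣ N) (hℓS : ℓ ∉ (↑S : Set ℕ))
        (B : ValuationSubring (AlgebraicClosure ℚ)) (_ : B.LiesOverPrime ℓ) (σ : GQ)
        (_ : B.IsFrobeniusAt σ ℓ) (j : ℕ) (_ : ∀ x ∈ E, (σ ^ j) x = τ x),
        (∃ y : CuspForm.heckeAlgebra N 2 (↑S : Set ℕ),
          powTr (CuspForm.heckeAlgebra.T hℓ hℓN hℓS)
            (ℓ : CuspForm.heckeAlgebra N 2 (↑S : Set ℕ)) j - 2 = p ^ n • y) ∧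
        ((p ^ n : ℕ) : ℤ) ∣ (ℓ : ℤ) ^ j - 1 := by
  have : Fact p.Prime := ⟨hp⟩
  obtain ⟨c, hc⟩ := faith hPH hNS hp.ne_zero K
  set m : ℕ := n + c with hm
  have hxt : ∀ i, p ^ m • testPt K m i = 0 := pow_smul_testPt K m
  obtain ⟨E₁, hE₁fin, hE₁⟩ := exists_field_fixing hsm (testPt K m) (fun i => ⟨m, hxt i⟩)
  obtain ⟨E₂, hE₂fin, hE₂⟩ := exists_field_fixing hsm (fun i => τ⁻¹ • testPt K m i)
    (fun i => ptors_group_smul _ ⟨m, hxt i⟩)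
  have hE₁₂fin : FiniteDimensional ℚ ↥(E₁ ⊔ E₂) := IntermediateField.finiteDimensional_sup _ _
  refine ⟨E₁ ⊔ E₂ ⊔ cycloLevel (p ^ m), IntermediateField.finiteDimensional_sup _ _, ?_⟩
  intro ℓ hℓ hℓN hℓS B hB σ hσ j hj
  have hle₁ : E₁ ≤ E₁ ⊔ E₂ ⊔ cycloLevel (p ^ m) := le_sup_left.trans le_sup_left
  have hle₂ : E₂ ≤ E₁ ⊔ E₂ ⊔ cycloLevel (p ^ m) := le_sup_right.trans le_sup_left
  have hle₃ : cycloLevel (p ^ m) ≤ E₁ ⊔ E₂ ⊔ cycloLevel (p ^ m) := le_sup_right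
  have hℓp : ℓ ≠ p := fun h => hℓS (h ▸ Finset.mem_coe.mpr hpS)
  have hℓNp : ¬ ℓ ∣ N * p := by
    intro h
    rcases (Nat.Prime.dvd_mul hℓ).1 h with h | h
    · exact hℓN h
    · exact hℓp ((Nat.prime_dvd_prime_iff_eq hℓ hp).1 h)
  -- the cyclotomic congruence
  have hcyc : ((p ^ m : ℕ) : ℤ) ∣ (ℓ : ℤ) ^ j - 1 := by
    have h1 := cyclo_pow_sub_mem p m hℓ hℓp B hB σ hσ j τ (fun y hy => hj y (hle₃ hy))
    rw [cycloZp_eq_one_of_isInertialAway p hτ, Units.val_one] at h1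
    apply int_dvd_of_mem_span p
    push_cast
    exact h1
  -- evaluation on the test points
  have hev : ∀ i, powTr (heckeGen ⟨ℓ, hℓ⟩) (ℓ : HeckeAlg) j • testPt K m i
      = (2 : ℕ) • testPt K m i := by
    intro i
    rw [powTr_smul_eq_of_agree hfrob hℓ hℓNp B hB σ hσ j τ _ hj (testPt K m i) ⟨m, hxt i⟩
      (fun h hh => hE₁ h (fun y hy => hh y (hle₁ hy)) i)
      (fun h hh => hE₂ h (fun y hy => hh y (hle₂ hy)) i)]
    have h1 : τ⁻¹ • testPt K m i = (2 : ℕ) • testPt K m i - τ • testPt K m i := by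
      have h := hτ2 (τ⁻¹ • testPt K m i) (ptors_group_smul _ ⟨m, hxt i⟩)
      rw [smul_inv_smul, smul_sub, smul_inv_smul] at h
      rw [two_smul]
      have : τ⁻¹ • testPt K m i
          = testPt K m i - (τ • testPt K m i - testPt K m i) := by
        rw [h]; abel
      rw [this]; abel
    have htor : p ^ m • (τ⁻¹ • testPt K m i) = 0 := by
      rw [← group_smul_nsmul, hxt i, smul_zero]
    have h2 : ℓ ^ j • (τ⁻¹ • testPt K m i) = τ⁻¹ • testPt K m i := by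
      have h := zsmul_eq_of_dvd_sub (a := (ℓ : ℤ) ^ j) (b := 1) hcyc htor
      rw [one_smul, ← Nat.cast_pow, natCast_zsmul] at h
      exact h
    rw [h2, h1]
    abel
  -- FAITH
  have h2c : Compat K hPH hNS (opOf J (2 : HeckeAlg))
      ((2 : ℕ) : CuspForm.heckeAlgebra N 2 (↑S : Set ℕ)) :=
    Compat.natCast 2 (fun x => by
      show (2 : HeckeAlg) • x = 2 • x
      rw [two_smul, two_smul])
  have hcompat := (compat_powTr K hPH hNS hℓ hℓN hℓS j).sub h2c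
  obtain ⟨y, hy⟩ := hc m _ _ hcompat (fun i => by
    show powTr (heckeGen ⟨ℓ, hℓ⟩) (ℓ : HeckeAlg) j • testPt K m i
      - (2 : HeckeAlg) • testPt K m i = 0
    rw [hev i, two_smul, two_smul, sub_self])
  have hmc : m - c = n := by omega
  rw [hmc, Nat.cast_ofNat] at hy
  refine ⟨⟨y, hy⟩, ?_⟩
  exact Dvd.dvd.trans (by
    rw [hm, pow_add, Nat.cast_mul]
    exact dvd_mul_right _ _) hcyc

/-- **Unramified case.**  If `τ` acts trivially on the `p`-power torsion of `J` and is in an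
inertia group at a prime `≠ p`, then for every `n` and `g` there is a finite extension `E` such
that `powTr T_ℓ ℓ j ≡ powTr T_ℓ' ℓ' j'` modulo `p ^ n` whenever `Frob_ℓ ^ j` agrees with `g` and
`Frob_ℓ' ^ j'` agrees with `g τ` on `E`. -/
theorem exists_field_unramified (hp : p.Prime) (hpS : p ∈ S)
    (hNS : ∀ q : ℕ, q.Prime → q ∣ N → q ∈ (↑S : Set ℕ))
    (hfrob : FrobeniusQuadratic (K := ℚ) (L := AlgebraicClosure ℚ) N p J)
    (hsm : ∀ x : J, (∃ n : ℕ, p ^ n • x = 0) →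
      ∃ L : IntermediateField ℚ (AlgebraicClosure ℚ), FiniteDimensional ℚ L ∧
        ∀ σ : GQ, (∀ y ∈ L, σ y = y) → σ • x = x)
    (hPH : PeriodHecke N fac)
    (K : KummerSystem N fac (↑S : Set ℕ) p J (fun ℓ => opOf J (heckeGen ℓ)))
    (n : ℕ) (g τ : GQ) (hτ : IsInertialAway p τ)
    (hτ1 : ∀ x : J, (∃ n : ℕ, p ^ n • x = 0) → τ • x = x) :
    ∃ E : IntermediateField ℚ (AlgebraicClosure ℚ), FiniteDimensional ℚ E ∧
      ∀ {ℓ : ℕ} (hℓ : ℓ.Prime) (hℓN : ¬ ℓ ∣ N) (hℓS : ℓ ∉ (↑S : Set ℕ))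
        (B : ValuationSubring (AlgebraicClosure ℚ)) (_ : B.LiesOverPrime ℓ) (σ : GQ)
        (_ : B.IsFrobeniusAt σ ℓ) (j : ℕ) (_ : ∀ x ∈ E, (σ ^ j) x = g x)
        {ℓ' : ℕ} (hℓ' : ℓ'.Prime) (hℓN' : ¬ ℓ' ∣ N) (hℓS' : ℓ' ∉ (↑S : Set ℕ))
        (B' : ValuationSubring (AlgebraicClosure ℚ)) (_ : B'.LiesOverPrime ℓ') (σ' : GQ)
        (_ : B'.IsFrobeniusAt σ' ℓ') (j' : ℕ) (_ : ∀ x ∈ E, (σ' ^ j') x = (g * τ) x),
        ∃ y : CuspForm.heckeAlgebra N 2 (↑S : Set ℕ),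
          powTr (CuspForm.heckeAlgebra.T hℓ hℓN hℓS)
              (ℓ : CuspForm.heckeAlgebra N 2 (↑S : Set ℕ)) j
            - powTr (CuspForm.heckeAlgebra.T hℓ' hℓN' hℓS')
              (ℓ' : CuspForm.heckeAlgebra N 2 (↑S : Set ℕ)) j' = p ^ n • y := by
  have : Fact p.Prime := ⟨hp⟩
  obtain ⟨c, hc⟩ := faith hPH hNS hp.ne_zero K
  set m : ℕ := n + c with hm
  have hxt : ∀ i, p ^ m • testPt K m i = 0 := pow_smul_testPt K m
  obtain ⟨E₁, hE₁fin, hE₁⟩ := exists_field_fixing hsm (testPt K m) (fun i => ⟨m, hxt i⟩)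
  obtain ⟨E₂, hE₂fin, hE₂⟩ := exists_field_fixing hsm (fun i => g⁻¹ • testPt K m i)
    (fun i => ptors_group_smul _ ⟨m, hxt i⟩)
  have hE₁₂fin : FiniteDimensional ℚ ↥(E₁ ⊔ E₂) := IntermediateField.finiteDimensional_sup _ _
  refine ⟨E₁ ⊔ E₂ ⊔ cycloLevel (p ^ m), IntermediateField.finiteDimensional_sup _ _, ?_⟩
  intro ℓ hℓ hℓN hℓS B hB σ hσ j hj ℓ' hℓ' hℓN' hℓS' B' hB' σ' hσ' j' hj'
  have hle₁ : E₁ ≤ E₁ ⊔ E₂ ⊔ cycloLevel (p ^ m) := le_sup_left.trans le_sup_left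
  have hle₂ : E₂ ≤ E₁ ⊔ E₂ ⊔ cycloLevel (p ^ m) := le_sup_right.trans le_sup_left
  have hle₃ : cycloLevel (p ^ m) ≤ E₁ ⊔ E₂ ⊔ cycloLevel (p ^ m) := le_sup_right
  have hne : ∀ {ℓ : ℕ}, ℓ.Prime → ¬ ℓ ∣ N → ℓ ∉ (↑S : Set ℕ) → ℓ ≠ p ∧ ¬ ℓ ∣ N * p := by
    intro ℓ hℓ hℓN hℓS
    have hℓp : ℓ ≠ p := fun h => hℓS (h ▸ Finset.mem_coe.mpr hpS)
    refine ⟨hℓp, fun h => ?_⟩
    rcases (Nat.Prime.dvd_mul hℓ).1 h with h | h
    · exact hℓN h
    · exact hℓp ((Nat.prime_dvd_prime_iff_eq hℓ hp).1 h)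
  obtain ⟨hℓp, hℓNp⟩ := hne hℓ hℓN hℓS
  obtain ⟨hℓp', hℓNp'⟩ := hne hℓ' hℓN' hℓS'
  -- `τ⁻¹` acts trivially as well
  have hτinv : ∀ x : J, (∃ n : ℕ, p ^ n • x = 0) → τ⁻¹ • x = x := by
    intro x hx
    exact inv_smul_eq_iff.mpr (hτ1 x hx).symm
  -- the cyclotomic congruence
  have hcyc : ((p ^ m : ℕ) : ℤ) ∣ (ℓ : ℤ) ^ j - (ℓ' : ℤ) ^ j' := by
    have h1 := cyclo_pow_sub_mem p m hℓ hℓp B hB σ hσ j g (fun y hy => hj y (hle₃ hy))
    have h2 := cyclo_pow_sub_mem p m hℓ' hℓp' B' hB' σ' hσ' j' (g * τ)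
      (fun y hy => hj' y (hle₃ hy))
    rw [map_mul, cycloZp_eq_one_of_isInertialAway p hτ, mul_one] at h2
    apply int_dvd_of_mem_span p
    push_cast
    have h3 := Ideal.sub_mem _ h1 h2
    rwa [sub_sub_sub_cancel_right] at h3
  -- evaluation on the test points
  have hev : ∀ i, powTr (heckeGen ⟨ℓ, hℓ⟩) (ℓ : HeckeAlg) j • testPt K m i
      = powTr (heckeGen ⟨ℓ', hℓ'⟩) (ℓ' : HeckeAlg) j' • testPt K m i := by
    intro i
    have hgτ : (g * τ)⁻¹ • testPt K m i = g⁻¹ • testPt K m i := by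
      rw [mul_inv_rev, mul_smul, hτinv _ (ptors_group_smul _ ⟨m, hxt i⟩)]
    rw [powTr_smul_eq_of_agree hfrob hℓ hℓNp B hB σ hσ j g _ hj (testPt K m i) ⟨m, hxt i⟩
      (fun h hh => hE₁ h (fun y hy => hh y (hle₁ hy)) i)
      (fun h hh => hE₂ h (fun y hy => hh y (hle₂ hy)) i),
      powTr_smul_eq_of_agree hfrob hℓ' hℓNp' B' hB' σ' hσ' j' (g * τ) _ hj' (testPt K m i)
      ⟨m, hxt i⟩ (fun h hh => hE₁ h (fun y hy => hh y (hle₁ hy)) i)
      (fun h hh => by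
        rw [hgτ]
        exact hE₂ h (fun y hy => hh y (hle₂ hy)) i),
      hgτ, mul_smul, hτ1 _ ⟨m, hxt i⟩]
    have htor : p ^ m • (g⁻¹ • testPt K m i) = 0 := by
      rw [← group_smul_nsmul, hxt i, smul_zero]
    have h := zsmul_eq_of_dvd_sub hcyc htor
    rw [← Nat.cast_pow, ← Nat.cast_pow, natCast_zsmul, natCast_zsmul] at h
    rw [h]
  -- FAITH
  have hcompat := (compat_powTr K hPH hNS hℓ hℓN hℓS j).sub
    (compat_powTr K hPH hNS hℓ' hℓN' hℓS' j')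
  obtain ⟨y, hy⟩ := hc m _ _ hcompat (fun i => by
    show powTr (heckeGen ⟨ℓ, hℓ⟩) (ℓ : HeckeAlg) j • testPt K m i
      - powTr (heckeGen ⟨ℓ', hℓ'⟩) (ℓ' : HeckeAlg) j' • testPt K m i = 0
    rw [hev i, sub_self])
  have hmc : m - c = n := by omega
  rw [hmc] at hy
  exact ⟨y, hy⟩

end Level

end Fermat.Agent.A2.H493
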