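import Fermat.Agent.S30.H709.OccJ

/-!
# Cell A2 / route B' (helper493): FAITH

From the two interface objects of the Galois tower already consumed by row S30
(`Fermat.Agent.S30.H709`):

* `PeriodHecke N fac` (Hecke-equivariance of the period map), and
* a `KummerSystem N fac S p J T` (Kummer maps `κ n` at all levels `p ^ n`),

we deduce **FAITH**: there is a constant `c` such that every Hecke element `t` whose companion
operator `u` on `J` kills the finitely many test points `testPt K n i ∈ J[p ^ n]` is divisible by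
`p ^ (n - c)` in the Hecke algebra `heckeAlgebra N 2 S`.

The pairs `(u, t)` of an additive endomorphism of `J` and a Hecke element acting compatibly on the
Kummer classes are the `Compat` pairs; they contain `(T_ℓ, T_ℓ)`, the integers, and are closed
under sums, differences and products.

No Petersson product, no reducedness, no `p`-adic points are used: only that the Hecke algebra
acts faithfully on the period lattice (`perRho_injective`) and that a finitely generated abelian
group has bounded `p`-saturation.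
-/

set_option autoImplicit false

noncomputable section

namespace Fermat.Agent.A2.H493

open CongruenceSubgroup ModularCurve ModularCurve.Period Fermat.Agent.S30.H709
open scoped MatrixGroups

/-! ### Bounded saturation -/

/-- Saturation is reached at a bounded exponent: in a finitely generated abelian group `E`, for a
subgroup `R` and a natural number `p`, there is `c` such that `p ^ k • v ∈ R` for some `k` implies
`p ^ c • v ∈ R`. -/
theorem exists_pow_smul_mem_of_exists {E : Type*} [AddCommGroup E] [Module.Finite ℤ E]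
    (R : AddSubgroup E) (p : ℕ) :
    ∃ c : ℕ, ∀ v : E, (∃ k : ℕ, p ^ k • v ∈ R) → p ^ c • v ∈ R := by
  classical
  have hmono : ∀ (k k' : ℕ) (v : E), k ≤ k' → p ^ k • v ∈ R → p ^ k' • v ∈ R := by
    intro k k' v hkk' hv
    have : p ^ k' • v = p ^ (k' - k) • (p ^ k • v) := by
      rw [smul_smul, ← pow_add, Nat.sub_add_cancel hkk']
    rw [this]
    exact R.nsmul_mem hv _
  let W : Submodule ℤ E :=
    { carrier := {v | ∃ k : ℕ, p ^ k • v ∈ R}
      zero_mem' := ⟨0, by simp⟩
      add_mem' := by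
        rintro v w ⟨k, hk⟩ ⟨k', hk'⟩
        refine ⟨max k k', ?_⟩
        rw [smul_add]
        exact R.add_mem (hmono k _ v (le_max_left _ _) hk) (hmono k' _ w (le_max_right _ _) hk')
      smul_mem' := by
        rintro a v ⟨k, hk⟩
        refine ⟨k, ?_⟩
        rw [smul_comm]
        exact R.zsmul_mem hk a }
  have hnoeth : IsNoetherian ℤ E := isNoetherian_of_isNoetherianRing_of_finite ℤ E
  obtain ⟨s, hs⟩ : W.FG := IsNoetherian.noetherian W
  have hsW : ∀ v ∈ s, ∃ k : ℕ, p ^ k • v ∈ R := by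
    intro v hv
    have : v ∈ W := by rw [← hs]; exact Submodule.subset_span hv
    exact this
  let kf : E → ℕ := fun v => if h : ∃ k : ℕ, p ^ k • v ∈ R then h.choose else 0
  have hkf : ∀ v ∈ s, p ^ kf v • v ∈ R := by
    intro v hv
    have h := hsW v hv
    simp only [kf, dif_pos h]
    exact h.choose_spec
  have key : ∀ v ∈ Submodule.span ℤ (s : Set E), p ^ s.sup kf • v ∈ R := by
    intro v hv
    induction hv using Submodule.span_induction with
    | mem x hx => exact hmono _ _ x (Finset.le_sup hx) (hkf x hx)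
    | zero => simp
    | add x y _ _ hx hy =>
      rw [smul_add]
      exact R.add_mem hx hy
    | smul a x _ hx =>
      rw [smul_comm]
      exact R.zsmul_mem hx a
  exact ⟨s.sup kf, fun v hv => key v (by rw [hs]; exact hv)⟩

/-! ### Characters attached to linear forms on the period lattice -/

section COf

variable {N : ℕ} [NeZero N]

/-- The integral parabolic character of `Γ₀(N)` attached to a linear form on the period
lattice. -/
def cOf (φ : perLattice N →ₗ[ℤ] ℤ) : Gamma0 N → ℤ := fun γ => φ (perCls N γ)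

theorem cOf_apply (φ : perLattice N →ₗ[ℤ] ℤ) (γ : Gamma0 N) : cOf φ γ = φ (perCls N γ) := rfl

theorem isParZ_cOf (φ : perLattice N →ₗ[ℤ] ℤ) : IsParZ (cOf φ) :=
  ⟨fun γ δ => by rw [cOf_apply, cOf_apply, cOf_apply, perCls_mul, map_add],
    fun γ hγ => by rw [cOf_apply, perCls_eq_zero_of_trace γ hγ, map_zero]⟩

theorem cOf_add (φ ψ : perLattice N →ₗ[ℤ] ℤ) : cOf (φ + ψ) = cOf φ + cOf ψ := rfl

theorem cOf_neg (φ : perLattice N →ₗ[ℤ] ℤ) : cOf (-φ) = - cOf φ := rfl

theorem cOf_zsmul (a : ℤ) (φ : perLattice N →ₗ[ℤ] ℤ) : cOf (a • φ) = a • cOf φ := rfl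

theorem cOf_sum {ι : Type*} (s : Finset ι) (f : ι → (perLattice N →ₗ[ℤ] ℤ)) :
    cOf (∑ i ∈ s, f i) = ∑ i ∈ s, cOf (f i) := by
  funext γ
  rw [cOf_apply, LinearMap.sum_apply, Finset.sum_apply]
  rfl

/-- Divisibility of the character by `m` means divisibility of the linear form by `m`. -/
theorem dvd_of_dvd_cOf (φ : perLattice N →ₗ[ℤ] ℤ) (m : ℤ) (h : ∀ γ, m ∣ cOf φ γ)
    (x : perLattice N) : m ∣ φ x := by
  induction x using perCls_induction with
  | h0 => rw [map_zero]; exact dvd_zero m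
  | hadd x y hx hy => rw [map_add]; exact dvd_add hx hy
  | hneg x hx => rw [map_neg]; exact (dvd_neg).mpr hx
  | hcls γ => exact h γ

/-- The cohomological Hecke operator on `cOf φ` is `cOf` of the transposed linear form. -/
theorem heckeFn_cOf {fac : ℕ → Gamma0 N → Multiset (Gamma0 N)} (hPH : PeriodHecke N fac)
    {S : Set ℕ} (hNS : ∀ q : ℕ, q.Prime → q ∣ N → q ∈ S)
    {ℓ : ℕ} (hℓ : ℓ.Prime) (hℓN : ¬ ℓ ∣ N) (hℓS : ℓ ∉ S) (φ : perLattice N →ₗ[ℤ] ℤ) :
    heckeFn fac ℓ (cOf φ)
      = cOf (φ ∘ₗ perRho hPH hNS (CuspForm.heckeAlgebra.T hℓ hℓN hℓS)) := by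
  funext γ
  rw [cOf_apply, LinearMap.comp_apply, perRho_perCls hPH hNS hℓ hℓN hℓS γ, map_multiset_sum,
    Multiset.map_map]
  rfl

end COf

/-! ### Injectivity of the Kummer maps at every level -/

section Inj

variable {N : ℕ} {fac : ℕ → Gamma0 N → Multiset (Gamma0 N)} {S : Set ℕ} {p : ℕ}
  {J : Type*} [AddCommGroup J] {T : Nat.Primes → J →+ J}

/-- The Kummer classes at level `n` are killed by `p ^ n`. -/
theorem kummer_pow_smul_eq_zero (K : KummerSystem N fac S p J T) (n : ℕ) {c : Gamma0 N → ℤ}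
    (hc : IsParZ c) : p ^ n • K.κ n c = 0 := by
  have h := K.pow_smul 0 n hc
  rw [zero_add] at h
  rw [h, K.map_zero_level c hc]

/-- Injectivity at level `n`: a character whose Kummer class at level `n` vanishes is divisible
by `p ^ n`. -/
theorem kummer_dvd_of_eq_zero (K : KummerSystem N fac S p J T) (hp : p ≠ 0) :
    ∀ (n : ℕ) (c : Gamma0 N → ℤ), IsParZ c → K.κ n c = 0 → ∀ γ, ((p ^ n : ℕ) : ℤ) ∣ c γ := by
  intro n
  induction n with
  | zero =>
    intro c _ _ γ
    rw [pow_zero, Nat.cast_one]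
    exact one_dvd _
  | succ n ih =>
    intro c hc h0 γ
    have h1 : K.κ 1 c = 0 := by
      have h := K.pow_smul 1 n hc
      rw [add_comm 1 n, h0, smul_zero] at h
      exact h.symm
    have hdiv := K.inj c hc h1
    have hp' : (p : ℤ) ≠ 0 := Int.natCast_ne_zero.mpr hp
    let c' : Gamma0 N → ℤ := fun γ => c γ / (p : ℤ)
    have hcc' : c = (p : ℤ) • c' := by
      funext δ
      simp only [c', Pi.smul_apply, smul_eq_mul]
      exact (Int.mul_ediv_cancel' (hdiv δ)).symm
    have hc' : IsParZ c' := by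
      refine ⟨fun γ δ => ?_, fun γ hγ => ?_⟩
      · simp only [c']
        rw [hc.1 γ δ, Int.add_ediv_of_dvd_left (hdiv γ)]
      · simp only [c']
        rw [hc.2 γ hγ, Int.zero_ediv]
    have h2 : K.κ n c' = 0 := by
      rw [← K.compat n c' hc', ← natCast_zsmul, ← K.map_zsmul (n + 1) hc', ← hcc', h0]
    have h3 := ih c' hc' h2 γ
    have h4 : c γ = (p : ℤ) * c' γ := congrFun hcc' γ
    rw [h4, pow_succ, Nat.cast_mul, mul_comm]
    exact mul_dvd_mul_left _ h3

end Inj

/-! ### Compatible pairs -/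

section Compat

variable {N : ℕ} [NeZero N] {fac : ℕ → Gamma0 N → Multiset (Gamma0 N)} {S : Set ℕ} {p : ℕ}
  {J : Type*} [AddCommGroup J] {T : Nat.Primes → J →+ J}

/-- `(u, t)` is a compatible pair: the additive endomorphism `u` of `J` acts on the Kummer classes
of the characters `cOf φ` as the Hecke element `t` acts (by transposition) on the period
lattice. -/
def Compat (K : KummerSystem N fac S p J T) (hPH : PeriodHecke N fac)
    (hNS : ∀ q : ℕ, q.Prime → q ∣ N → q ∈ S) (u : J →+ J)
    (t : CuspForm.heckeAlgebra N 2 S) : Prop :=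
  ∀ (n : ℕ) (φ : perLattice N →ₗ[ℤ] ℤ),
    u (K.κ n (cOf φ)) = K.κ n (cOf (φ ∘ₗ perRho hPH hNS t))

variable {K : KummerSystem N fac S p J T} {hPH : PeriodHecke N fac}
  {hNS : ∀ q : ℕ, q.Prime → q ∣ N → q ∈ S}

theorem Compat.of_eq {u u' : J →+ J} {t : CuspForm.heckeAlgebra N 2 S}
    (h : Compat K hPH hNS u' t) (huu' : ∀ x, u x = u' x) : Compat K hPH hNS u t :=
  fun n φ => by rw [huu', h n φ]

/-- The Hecke operators `T_ℓ`, `ℓ ∤ N`, `ℓ ∉ S`. -/
theorem Compat.hecke {ℓ : ℕ} (hℓ : ℓ.Prime) (hℓN : ¬ ℓ ∣ N) (hℓS : ℓ ∉ S) :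
    Compat K hPH hNS (T ⟨ℓ, hℓ⟩) (CuspForm.heckeAlgebra.T hℓ hℓN hℓS) := by
  intro n φ
  rw [K.hecke n ⟨ℓ, hℓ⟩ hℓN hℓS (cOf φ) (isParZ_cOf φ)]
  exact congrArg (K.κ n) (heckeFn_cOf hPH hNS hℓ hℓN hℓS φ)

/-- Integers. -/
theorem Compat.intCast (a : ℤ) {u : J →+ J} (hu : ∀ x, u x = a • x) :
    Compat K hPH hNS u (a : CuspForm.heckeAlgebra N 2 S) := by
  intro n φ
  rw [hu, ← K.map_zsmul n (isParZ_cOf φ)]
  refine congrArg (K.κ n) ?_
  funext γ
  rw [cOf_apply, LinearMap.comp_apply, map_intCast, Pi.smul_apply, cOf_apply]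
  have : ((a : Module.End ℤ (perLattice N))) (perCls N γ) = a • perCls N γ := by
    rw [← zsmul_one, LinearMap.smul_apply, Module.End.one_apply]
  rw [this, map_zsmul]

/-- Natural numbers. -/
theorem Compat.natCast (a : ℕ) {u : J →+ J} (hu : ∀ x, u x = a • x) :
    Compat K hPH hNS u (a : CuspForm.heckeAlgebra N 2 S) := by
  have h := Compat.intCast (K := K) (hPH := hPH) (hNS := hNS) (a : ℤ) (u := u)
    (fun x => by rw [hu, natCast_zsmul])
  rwa [Int.cast_natCast] at h

theorem Compat.add {u u' : J →+ J} {t t' : CuspForm.heckeAlgebra N 2 S}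
    (h : Compat K hPH hNS u t) (h' : Compat K hPH hNS u' t') :
    Compat K hPH hNS (u + u') (t + t') := by
  intro n φ
  rw [AddMonoidHom.add_apply, h n φ, h' n φ, ← K.map_add n _ _ (isParZ_cOf _) (isParZ_cOf _),
    ← cOf_add, map_add, LinearMap.comp_add]

theorem Compat.neg {u : J →+ J} {t : CuspForm.heckeAlgebra N 2 S}
    (h : Compat K hPH hNS u t) : Compat K hPH hNS (-u) (-t) := by
  intro n φ
  rw [AddMonoidHom.neg_apply, h n φ, ← K.map_neg n (isParZ_cOf _), ← cOf_neg, map_neg,
    LinearMap.comp_neg]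

theorem Compat.sub {u u' : J →+ J} {t t' : CuspForm.heckeAlgebra N 2 S}
    (h : Compat K hPH hNS u t) (h' : Compat K hPH hNS u' t') :
    Compat K hPH hNS (u - u') (t - t') := by
  rw [sub_eq_add_neg, sub_eq_add_neg]
  exact h.add h'.neg

theorem Compat.comp {u u' : J →+ J} {t t' : CuspForm.heckeAlgebra N 2 S}
    (h : Compat K hPH hNS u t) (h' : Compat K hPH hNS u' t') :
    Compat K hPH hNS (u.comp u') (t * t') := by
  intro n φ
  rw [AddMonoidHom.comp_apply, h' n φ, h n (φ ∘ₗ perRho hPH hNS t'), mul_comm t t', map_mul,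
    Module.End.mul_eq_comp, LinearMap.comp_assoc]

end Compat

/-! ### FAITH -/

section Faith

variable {N : ℕ} [NeZero N] {fac : ℕ → Gamma0 N → Multiset (Gamma0 N)} {S : Set ℕ} {p : ℕ}
  {J : Type*} [AddCommGroup J] {T : Nat.Primes → J →+ J}

/-- The test points at level `n`: the Kummer classes of the coordinate characters of the period
lattice (finitely many points of `J[p ^ n]`). -/
def testPt (K : KummerSystem N fac S p J T) (n : ℕ)
    (i : Fin (Module.finrank ℤ (perLattice N))) : J :=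
  K.κ n (cOf ((Module.finBasis ℤ (perLattice N)).coord i))

theorem pow_smul_testPt (K : KummerSystem N fac S p J T) (n : ℕ)
    (i : Fin (Module.finrank ℤ (perLattice N))) : p ^ n • testPt K n i = 0 :=
  kummer_pow_smul_eq_zero K n (isParZ_cOf _)

/-- An endomorphism of a free module of finite rank all of whose coordinates are divisible by `m`
is `m` times an endomorphism. -/
theorem exists_smul_eq_of_dvd_coord {Λ : Type*} [AddCommGroup Λ] {r : ℕ}
    (b : Module.Basis (Fin r) ℤ Λ) (f : Module.End ℤ Λ) (m : ℤ)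
    (h : ∀ i x, m ∣ b.coord i (f x)) : ∃ v : Module.End ℤ Λ, m • v = f := by
  refine ⟨b.constr ℤ fun k => ∑ i, (b.coord i (f (b k)) / m) • b i, ?_⟩
  refine b.ext fun k => ?_
  rw [LinearMap.smul_apply, Module.Basis.constr_basis, Finset.smul_sum]
  conv_rhs => rw [← b.sum_repr (f (b k))]
  refine Finset.sum_congr rfl fun i _ => ?_
  rw [smul_smul, Int.mul_ediv_cancel' (h i (b k))]
  rfl

/-- **FAITH.**  There is a constant `c` (depending on `N`, `S`, `p` only) such that a Hecke
element `t` whose companion `u` kills the test points of level `n` is divisible by `p ^ (n - c)`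
in the Hecke algebra. -/
theorem faith (hPH : PeriodHecke N fac) (hNS : ∀ q : ℕ, q.Prime → q ∣ N → q ∈ S) (hp : p ≠ 0)
    (K : KummerSystem N fac S p J T) :
    ∃ c : ℕ, ∀ (n : ℕ) (u : J →+ J) (t : CuspForm.heckeAlgebra N 2 S), Compat K hPH hNS u t →
      (∀ i, u (testPt K n i) = 0) →
      ∃ y : CuspForm.heckeAlgebra N 2 S, t = p ^ (n - c) • y := by
  classical
  have hfinEnd : Module.Finite ℤ (Module.End ℤ (perLattice N)) :=
    Module.Finite.linearMap ℤ ℤ (perLattice N) (perLattice N)
  obtain ⟨c, hc⟩ := exists_pow_smul_mem_of_exists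
    (E := Module.End ℤ (perLattice N)) (perRho hPH hNS).range.toAddSubgroup p
  refine ⟨c, fun n u t hcompat hkill => ?_⟩
  rcases le_or_gt n c with hnc | hnc
  · exact ⟨t, by rw [Nat.sub_eq_zero_of_le hnc, pow_zero, one_smul]⟩
  let b := Module.finBasis ℤ (perLattice N)
  -- coordinates of `ρ t` are divisible by `p ^ n`
  have hdiv : ∀ i x, ((p ^ n : ℕ) : ℤ) ∣ b.coord i (perRho hPH hNS t x) := by
    intro i x
    have h1 : K.κ n (cOf (b.coord i ∘ₗ perRho hPH hNS t)) = 0 := by
      rw [← hcompat n (b.coord i)]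
      exact hkill i
    exact dvd_of_dvd_cOf _ _ (kummer_dvd_of_eq_zero K hp n _ (isParZ_cOf _) h1) x
  obtain ⟨v, hv⟩ := exists_smul_eq_of_dvd_coord b (perRho hPH hNS t) _ hdiv
  have hv' : p ^ n • v = perRho hPH hNS t := by
    rw [← hv, natCast_zsmul]
  have hmem : p ^ c • v ∈ (perRho hPH hNS).range.toAddSubgroup := by
    refine hc v ⟨n, ?_⟩
    rw [hv']
    exact ⟨t, rfl⟩
  obtain ⟨y, hy⟩ := hmem
  refine ⟨y, perRho_injective hPH hNS ?_⟩
  rw [map_nsmul, hy, ← hv', smul_smul, ← pow_add, Nat.sub_add_cancel hnc.le]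

end Faith

end Fermat.Agent.A2.H493
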