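import Fermat.Agent.A2.H493.Gate
import Fermat.Agent.Lib.Cheb.FrobeniusDivision

/-!
# Cell A2 / route B' (helper493): the frozen statements S31 and S34 from the tower gates

CHEB Tier 1 is taken from main (`Fermat.Agent.Lib.Cheb.frobeniusDivision`).  The theorems below
have exactly the binders of the frozen statements S31 / S34, plus ONE hypothesis:

* `S31_of_towerAt   (htower : TowerAt p N S)`;
* `S34_of_towerA2At (htower : TowerA2At p N S q)`.

`TowerAt`, `TowerA2At` are defined in `Gate.lean`.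
-/

set_option autoImplicit false

open IsLocalRing

namespace Fermat.Agent.A2.H493

/-- The frozen statement S31 from the tower gate. -/
theorem S31_of_towerAt {p : ℕ} {N : ℕ} [NeZero N] {S : Finset ℕ}
    {𝒪 : Type} [CommRing 𝒪] [IsDomain 𝒪] [IsDiscreteValuationRing 𝒪]
    [IsAdicComplete (IsLocalRing.maximalIdeal 𝒪) 𝒪]
    {θ : CuspForm.heckeAlgebra N 2 (↑S : Set ℕ) →+* IsLocalRing.ResidueField 𝒪}
    {T : Type} [CommRing T] [IsLocalRing T] [IsNoetherianRing T]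
    [IsAdicComplete (IsLocalRing.maximalIdeal T) T] [Algebra 𝒪 T] [IsLocalHom (algebraMap 𝒪 T)]
    [Module.Finite 𝒪 T] [Module.Free 𝒪 T]
    (htower : TowerAt p N S) (hp : p.Prime)
    (hp𝒪 : (p : 𝒪) ∈ IsLocalRing.maximalIdeal 𝒪) (hpS : p ∈ S)
    (hNS : ∀ q : ℕ, q.Prime → q ∣ N → q ∈ S)
    (H : CuspForm.HeckeGaloisRepDatum N (↑S : Set ℕ) 𝒪 θ T)
    (q : ℕ) (hq : q.Prime) (hqS : q ∉ S) :
    H.ρ.IsUnramifiedAt q :=
  unramified_of_towerAt Fermat.Agent.Lib.Cheb.frobeniusDivision htower hp hp𝒪 hpS hNS H q hq hqS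

/-- The frozen statement S34 from the tower gate with the wall A2. -/
theorem S34_of_towerA2At
    {𝒪 : Type} [CommRing 𝒪] [IsDomain 𝒪] [IsDiscreteValuationRing 𝒪]
    [IsAdicComplete (maximalIdeal 𝒪) 𝒪] [Finite (ResidueField 𝒪)] [CharZero 𝒪]
    {p : ℕ} (hp : p.Prime) (hp𝒪 : (p : 𝒪) ∈ maximalIdeal 𝒪)
    {N : ℕ} [NeZero N] {S : Finset ℕ} (hpS : p ∈ S) (hNS : ∀ q : ℕ, q.Prime → q ∣ N → q ∈ S)
    {θ : CuspForm.heckeAlgebra N 2 (↑S : Set ℕ) →+* ResidueField 𝒪}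
    {T : Type} [CommRing T] [IsLocalRing T] [IsNoetherianRing T]
    [IsAdicComplete (maximalIdeal T) T] [Algebra 𝒪 T] [IsLocalHom (algebraMap 𝒪 T)]
    [Module.Finite 𝒪 T] [Module.Free 𝒪 T]
    (H : CuspForm.HeckeGaloisRepDatum N (↑S : Set ℕ) 𝒪 θ T)
    (q : ℕ) (hq : q.Prime) (hqp : q ≠ p) (_hqN : q ∣ N) (_hq2 : ¬ q ^ 2 ∣ N)
    (htower : TowerA2At p N S q) :
    H.ρ.IsUnipotentOnInertiaAt q :=
  unipotent_of_towerA2At Fermat.Agent.Lib.Cheb.frobeniusDivision htower hp hp𝒪 hpS hNS H hq hqp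

end Fermat.Agent.A2.H493
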