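import Fermat.Agent.A2.H493.FromT
import Fermat.Agent.A2.T0.H669.T0
import Fermat.Agent.A2.T1.H669.T1
import Fermat.Agent.A2.IF.H429.IF

/-!
# Cell A2 / route B' (helper493): S34 from (T), ALG and MOD

The chain of cell A2 which is already on main is plugged into `S34_of_T_wall`:

* T0 (`A2.T0.H669.target_of_kummerTarget`) : `KummerTarget → Target`;
* T1 (`A2.T1.H669.t1`)                     : `ALG + IF + MOD → KummerTarget`;
* IF (`A2.IF.H429.ifStatement`).

Result: `S34_of_T_alg_mod : (T) → AlgSSStatement → ModSSStatement → <frozen S34>`, i.e. the frozen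
statement S34 from the THREE open interface statements

* (T)   `∀ N p, Fermat.Agent.S30.H330.TorsionRelations N p`   (rows S37/S18; same as for S30),
* (ALG) `Fermat.Agent.A2.AlgSSStatement`,
* (MOD) `Fermat.Agent.A2.ModSSStatement`.
-/

set_option autoImplicit false

open IsLocalRing

namespace Fermat.Agent.A2.H493

/-- T0 of cell A2: the Kummer form of the wall gives the wall. -/
theorem wallStatement_of_kummer (h : KummerWallStatement) : WallStatement :=
  fun N q m hq hqN hq2 hN hm hqm =>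
    Fermat.Agent.A2.T0.H669.target_of_kummerTarget N q m hm (h N q m hq hqN hq2 hN hm hqm)

/-- T1 + IF of cell A2: ALG and MOD give the Kummer form of the wall. -/
theorem kummerWallStatement_of_alg_mod (hALG : Fermat.Agent.A2.AlgSSStatement)
    (hMOD : Fermat.Agent.A2.ModSSStatement) : KummerWallStatement :=
  Fermat.Agent.A2.T1.H669.t1 hALG Fermat.Agent.A2.IF.H429.ifStatement hMOD

/-- ALG and MOD give the wall. -/
theorem wallStatement_of_alg_mod (hALG : Fermat.Agent.A2.AlgSSStatement)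
    (hMOD : Fermat.Agent.A2.ModSSStatement) : WallStatement :=
  wallStatement_of_kummer (kummerWallStatement_of_alg_mod hALG hMOD)

/-- **The frozen statement S34 from (T), ALG and MOD.** -/
theorem S34_of_T_alg_mod
    (hT : ∀ (N : ℕ) [NeZero N] (p : ℕ) [Fact p.Prime],
      Fermat.Agent.S30.H330.TorsionRelations N p)
    (hALG : Fermat.Agent.A2.AlgSSStatement) (hMOD : Fermat.Agent.A2.ModSSStatement)
    {𝒪 : Type} [CommRing 𝒪] [IsDomain 𝒪] [IsDiscreteValuationRing 𝒪]
    [IsAdicComplete (maximalIdeal 𝒪) 𝒪] [Finite (ResidueField 𝒪)] [CharZero 𝒪]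
    {p : ℕ} (hp : p.Prime) (hp𝒪 : (p : 𝒪) ∈ maximalIdeal 𝒪)
    {N : ℕ} [NeZero N] {S : Finset ℕ} (hpS : p ∈ S) (hNS : ∀ q : ℕ, q.Prime → q ∣ N → q ∈ S)
    {θ : CuspForm.heckeAlgebra N 2 (↑S : Set ℕ) →+* ResidueField 𝒪}
    {T : Type} [CommRing T] [IsLocalRing T] [IsNoetherianRing T]
    [IsAdicComplete (maximalIdeal T) T] [Algebra 𝒪 T] [IsLocalHom (algebraMap 𝒪 T)]
    [Module.Finite 𝒪 T] [Module.Free 𝒪 T]
    (H : CuspForm.HeckeGaloisRepDatum N (↑S : Set ℕ) 𝒪 θ T)
    (q : ℕ) (hq : q.Prime) (hqp : q ≠ p) (hqN : q ∣ N) (hq2 : ¬ q ^ 2 ∣ N) :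
    H.ρ.IsUnipotentOnInertiaAt q :=
  S34_of_T_wall hT (wallStatement_of_alg_mod hALG hMOD) hp hp𝒪 hpS hNS H q hq hqp hqN hq2

end Fermat.Agent.A2.H493
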