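import Fermat.Agent.A2.H493.Inst
import Fermat.Agent.A2.H493.Final
import Fermat.Agent.S30.Chain.Package
import Fermat.Agent.A2.Spec

/-!
# Cell A2 / route B' (helper493): S31 and S34 from (T) and the wall A2

Exactly TWO open inputs remain (everything else is taken from main):

* (T)    `hT : ∀ N p, Fermat.Agent.S30.H330.TorsionRelations N p`   — the SAME input as the one of
         `Fermat.Agent.S30.Chain.result_of_T` (row S30; follows from S37 [PR] + S18);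
* (wall) `hA2 : WallStatement` — the deliverable `Fermat.Agent.A2.target` of cell A2, as a `Prop`.

Main results (binders of the frozen statements, plus the hypotheses above):

* `S31_of_T      : (T) → <frozen S31>`          (no S30, no SS needed);
* `S34_of_T_wall : (T) → (wall) → <frozen S34>` (no S30, no SS, no finiteness of `J[p]`).

So `Fermat/Agent/S34.lean` is `Fermat.Agent.A2.H493.S34_of_T_wall hT hA2 H q hq hqp hqN hq2 …`.
-/

set_option autoImplicit false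

open IsLocalRing

namespace Fermat.Agent.A2.H493

open ModularCurve

/-- The deliverable of cell A2 (`Fermat.Agent.A2.target` of the A2 skeleton) as a `Prop`:
for `q ‖ N`, `q ∤ m`, every element of an inertia group at `q` acts unipotently on `J₀(N)[m]`. -/
def WallStatement : Prop :=
  ∀ (N q m : ℕ), q.Prime → q ∣ N → ¬ q ^ 2 ∣ N → N ≠ 0 → 0 < m → ¬ q ∣ m →
    Fermat.Agent.A2.Target N q m

/-- The Kummer form of the deliverable of cell A2 (`Fermat.Agent.A2.kummerTarget_of_parts`). -/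
def KummerWallStatement : Prop :=
  ∀ (N q m : ℕ), q.Prime → q ∣ N → ¬ q ^ 2 ∣ N → N ≠ 0 → 0 < m → ¬ q ∣ m →
    Fermat.Agent.A2.KummerTarget N q m

/-- The targets of cell A2 at the moduli `p ^ n` give the wall in the form of `Gate.lean`. -/
theorem isWallA2_of_target {N p q : ℕ}
    (h : ∀ n : ℕ, Fermat.Agent.A2.Target N q (p ^ n)) : IsWallA2 p q (JZero N) := by
  intro B hB τ hτ x hx
  obtain ⟨n, hn⟩ := hx
  have h1 : τ • (τ • x) + x = 2 • (τ • x) := h n B hB τ hτ x hn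
  have h2 : τ • (τ • x) = 2 • (τ • x) - x := eq_sub_of_add_eq h1
  rw [smul_sub, h2, two_smul]
  abel

/-- The wall of `Gate.lean` from the deliverable of cell A2. -/
theorem isWallA2_of_wallStatement (hA2 : WallStatement) {N p q : ℕ} [NeZero N] (hp : p.Prime)
    (hq : q.Prime) (hqp : q ≠ p) (hqN : q ∣ N) (hq2 : ¬ q ^ 2 ∣ N) :
    IsWallA2 p q (JZero N) :=
  isWallA2_of_target fun n =>
    hA2 N q (p ^ n) hq hqN hq2 (NeZero.ne N) (pow_pos hp.pos n)
      (fun hd => hqp ((Nat.prime_dvd_prime_iff_eq hq hp).1 (hq.dvd_of_dvd_pow hd)))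

/-- The Kummer packages at all moduli `p ^ n` (from main). -/
theorem kumPackage_pow (N : ℕ) [NeZero N] {p : ℕ} (hp : p.Prime) (n : ℕ) :
    Fermat.Agent.S30.H450.KumPackage N (p ^ n) :=
  haveI : NeZero (p ^ n) := ⟨pow_ne_zero n hp.ne_zero⟩
  Fermat.Agent.S30.Chain.kumPackage N (p ^ n)

/-- **The gate `TowerAt` from (T) alone.** -/
theorem towerAt_of_T {N : ℕ} [NeZero N] {p : ℕ} (hp : p.Prime) {S : Finset ℕ} (hpS : p ∈ S)
    (hT : Fermat.Agent.S30.H330.TorsionRelations N p) : TowerAt p N S :=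
  towerAt_of_torsionRelations hp hpS hT (kumPackage_pow N hp)

/-- **The gate `TowerA2At` from (T) and the wall.** -/
theorem towerA2At_of_T_wall {N : ℕ} [NeZero N] {p q : ℕ} (hp : p.Prime) {S : Finset ℕ}
    (hpS : p ∈ S) (hT : Fermat.Agent.S30.H330.TorsionRelations N p)
    (hA2 : IsWallA2 p q (JZero N)) : TowerA2At p N S q :=
  towerA2At_of_torsionRelations hp hpS hT (kumPackage_pow N hp) hA2

/-- **The frozen statement S31 from (T) alone.** -/
theorem S31_of_T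
    (hT : ∀ (N : ℕ) [NeZero N] (p : ℕ) [Fact p.Prime],
      Fermat.Agent.S30.H330.TorsionRelations N p)
    {p : ℕ} {N : ℕ} [NeZero N] {S : Finset ℕ}
    {𝒪 : Type} [CommRing 𝒪] [IsDomain 𝒪] [IsDiscreteValuationRing 𝒪]
    [IsAdicComplete (IsLocalRing.maximalIdeal 𝒪) 𝒪]
    {θ : CuspForm.heckeAlgebra N 2 (↑S : Set ℕ) →+* IsLocalRing.ResidueField 𝒪}
    {T : Type} [CommRing T] [IsLocalRing T] [IsNoetherianRing T]
    [IsAdicComplete (IsLocalRing.maximalIdeal T) T] [Algebra 𝒪 T] [IsLocalHom (algebraMap 𝒪 T)]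
    [Module.Finite 𝒪 T] [Module.Free 𝒪 T]
    (hp : p.Prime)
    (hp𝒪 : (p : 𝒪) ∈ IsLocalRing.maximalIdeal 𝒪) (hpS : p ∈ S)
    (hNS : ∀ q : ℕ, q.Prime → q ∣ N → q ∈ S)
    (H : CuspForm.HeckeGaloisRepDatum N (↑S : Set ℕ) 𝒪 θ T)
    (q : ℕ) (hq : q.Prime) (hqS : q ∉ S) :
    H.ρ.IsUnramifiedAt q :=
  haveI : Fact p.Prime := ⟨hp⟩
  S31_of_towerAt (towerAt_of_T hp hpS (hT N p)) hp hp𝒪 hpS hNS H q hq hqS

/-- **The frozen statement S34 from (T) and the wall A2** (in the form of `Gate.lean`, only at the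
given `N`, `p`, `q`). -/
theorem S34_of_T_isWallA2
    (hT : ∀ (N : ℕ) [NeZero N] (p : ℕ) [Fact p.Prime],
      Fermat.Agent.S30.H330.TorsionRelations N p)
    {𝒪 : Type} [CommRing 𝒪] [IsDomain 𝒪] [IsDiscreteValuationRing 𝒪]
    [IsAdicComplete (maximalIdeal 𝒪) 𝒪] [Finite (ResidueField 𝒪)] [CharZero 𝒪]
    {p : ℕ} (hp : p.Prime) (hp𝒪 : (p : 𝒪) ∈ maximalIdeal 𝒪)
    {N : ℕ} [NeZero N] {S : Finset ℕ} (hpS : p ∈ S) (hNS : ∀ q : ℕ, q.Prime → q ∣ N → q ∈ S)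
    {θ : CuspForm.heckeAlgebra N 2 (↑S : Set ℕ) →+* ResidueField 𝒪}
    {T : Type} [CommRing T] [IsLocalRing T] [IsNoetherianRing T]
    [IsAdicComplete (maximalIdeal T) T] [Algebra 𝒪 T] [IsLocalHom (algebraMap 𝒪 T)]
    [Module.Finite 𝒪 T] [Module.Free 𝒪 T]
    (H : CuspForm.HeckeGaloisRepDatum N (↑S : Set ℕ) 𝒪 θ T)
    (q : ℕ) (hq : q.Prime) (hqp : q ≠ p) (hqN : q ∣ N) (hq2 : ¬ q ^ 2 ∣ N)
    (hA2 : IsWallA2 p q (JZero N)) :
    H.ρ.IsUnipotentOnInertiaAt q :=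
  haveI : Fact p.Prime := ⟨hp⟩
  S34_of_towerA2At hp hp𝒪 hpS hNS H q hq hqp hqN hq2 (towerA2At_of_T_wall hp hpS (hT N p) hA2)

/-- **The frozen statement S34 from (T) and the deliverable of cell A2.** -/
theorem S34_of_T_wall
    (hT : ∀ (N : ℕ) [NeZero N] (p : ℕ) [Fact p.Prime],
      Fermat.Agent.S30.H330.TorsionRelations N p)
    (hA2 : WallStatement)
    {𝒪 : Type} [CommRing 𝒪] [IsDomain 𝒪] [IsDiscreteValuationRing 𝒪]
    [IsAdicComplete (maximalIdeal 𝒪) 𝒪] [Finite (ResidueField 𝒪)] [CharZero 𝒪]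
    {p : ℕ} (hp : p.Prime) (hp𝒪 : (p : 𝒪) ∈ maximalIdeal 𝒪)
    {N : ℕ} [NeZero N] {S : Finset ℕ} (hpS : p ∈ S) (hNS : ∀ q : ℕ, q.Prime → q ∣ N → q ∈ S)
    {θ : CuspForm.heckeAlgebra N 2 (↑S : Set ℕ) →+* ResidueField 𝒪}
    {T : Type} [CommRing T] [IsLocalRing T] [IsNoetherianRing T]
    [IsAdicComplete (maximalIdeal T) T] [Algebra 𝒪 T] [IsLocalHom (algebraMap 𝒪 T)]
    [Module.Finite 𝒪 T] [Module.Free 𝒪 T]
    (H : CuspForm.HeckeGaloisRepDatum N (↑S : Set ℕ) 𝒪 θ T)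
    (q : ℕ) (hq : q.Prime) (hqp : q ≠ p) (hqN : q ∣ N) (hq2 : ¬ q ^ 2 ∣ N) :
    H.ρ.IsUnipotentOnInertiaAt q :=
  S34_of_T_isWallA2 hT hp hp𝒪 hpS hNS H q hq hqp hqN hq2
    (isWallA2_of_wallStatement hA2 hp hq hqp hqN hq2)

end Fermat.Agent.A2.H493
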