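import Fermat.Agent.A2.H493.Transfer

/-!
# Cell A2 / route B' (helper493): gates for S31 and S34

`TowerAt p N S` bundles (existentially over the Hecke–Galois module `J`; in the application
`J = JZero N`) the finite-level tower interface; `TowerA2At p N S q` adds the wall A2 at `q`.

* `unramified_of_towerAt` : `ChebStatement → TowerAt p N S →` conclusion of the frozen S31;
* `unipotent_of_towerA2At` : `ChebStatement → TowerA2At p N S q →` conclusion of the frozen S34.

So `S31.lean` / `S34.lean` are one line each as soon as the tower (and, for S34, cell A2) deliver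
these `Prop`s for `JZero N`.
-/

set_option autoImplicit false
set_option linter.unusedSectionVars false

noncomputable section

namespace Fermat.Agent.A2.H493

open CongruenceSubgroup ModularCurve Fermat.Agent.S30.H709 Fermat.Agent.S31
open scoped MatrixGroups

/-- The finite-level tower interface for a Hecke–Galois module `J`. -/
structure IsTower (p N : ℕ) [NeZero N] (S : Finset ℕ) (J : Type) [AddCommGroup J]
    [Module HeckeAlg J] [DistribMulAction GQ J] [SMulCommClass GQ HeckeAlg J]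
    (fac : ℕ → Gamma0 N → Multiset (Gamma0 N)) : Prop where
  /-- inertia at `ℓ ∤ N p` acts trivially on `p`-power torsion (S37) -/
  unram : UnramifiedOutside (K := ℚ) (L := AlgebraicClosure ℚ) N p J
  /-- the Eichler–Shimura relation on `p`-power torsion (S37) -/
  frob : FrobeniusQuadratic (K := ℚ) (L := AlgebraicClosure ℚ) N p J
  /-- smoothness of the Galois action on `p`-power torsion -/
  smooth : ∀ x : J, (∃ n : ℕ, p ^ n • x = 0) →
    ∃ L : IntermediateField ℚ (AlgebraicClosure ℚ), FiniteDimensional ℚ L ∧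
      ∀ σ : GQ, (∀ y ∈ L, σ y = y) → σ • x = x
  /-- Hecke-equivariance of the period map -/
  periodHecke : PeriodHecke N fac
  /-- the Kummer maps at all levels `p ^ n` -/
  kummer : Nonempty (KummerSystem N fac (↑S : Set ℕ) p J (fun ℓ => opOf J (heckeGen ℓ)))

/-- The wall A2 at `q` for a Galois module `J`: inertia at `q` acts on the `p`-power torsion
with `(τ - 1)² = 0`. -/
def IsWallA2 (p q : ℕ) (J : Type) [AddCommGroup J] [DistribMulAction GQ J] : Prop :=
  ∀ B : ValuationSubring (AlgebraicClosure ℚ), B.LiesOverPrime q →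
    ∀ τ ∈ B.inertiaSubgroupIn ℚ, ∀ x : J, (∃ n : ℕ, p ^ n • x = 0) →
      τ • (τ • x - x) = τ • x - x

/-- Some Hecke–Galois module satisfies the tower interface. -/
def TowerAt (p N : ℕ) [NeZero N] (S : Finset ℕ) : Prop :=
  ∃ (J : Type) (_ : AddCommGroup J) (_ : Module HeckeAlg J) (_ : DistribMulAction GQ J)
    (_ : SMulCommClass GQ HeckeAlg J) (fac : ℕ → Gamma0 N → Multiset (Gamma0 N)),
    IsTower p N S J fac

/-- Some Hecke–Galois module satisfies the tower interface and the wall A2 at `q`. -/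
def TowerA2At (p N : ℕ) [NeZero N] (S : Finset ℕ) (q : ℕ) : Prop :=
  ∃ (J : Type) (_ : AddCommGroup J) (_ : Module HeckeAlg J) (_ : DistribMulAction GQ J)
    (_ : SMulCommClass GQ HeckeAlg J) (fac : ℕ → Gamma0 N → Multiset (Gamma0 N)),
    IsTower p N S J fac ∧ IsWallA2 p q J

variable {p : ℕ} {N : ℕ} [NeZero N] {S : Finset ℕ}
  {𝒪 : Type} [CommRing 𝒪] [IsDomain 𝒪] [IsDiscreteValuationRing 𝒪]
  [IsAdicComplete (IsLocalRing.maximalIdeal 𝒪) 𝒪]
  {θ : CuspForm.heckeAlgebra N 2 (↑S : Set ℕ) →+* IsLocalRing.ResidueField 𝒪}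
  {T : Type} [CommRing T] [IsLocalRing T] [IsNoetherianRing T]
  [IsAdicComplete (IsLocalRing.maximalIdeal T) T] [Algebra 𝒪 T] [IsLocalHom (algebraMap 𝒪 T)]
  [Module.Finite 𝒪 T] [Module.Free 𝒪 T]

/-- **Gate for S31.** -/
theorem unramified_of_towerAt (hcheb : ChebStatement) (htower : TowerAt p N S) (hp : p.Prime)
    (hp𝒪 : (p : 𝒪) ∈ IsLocalRing.maximalIdeal 𝒪) (hpS : p ∈ S)
    (hNS : ∀ q : ℕ, q.Prime → q ∣ N → q ∈ S)
    (H : CuspForm.HeckeGaloisRepDatum N (↑S : Set ℕ) 𝒪 θ T)
    (q : ℕ) (hq : q.Prime) (hqS : q ∉ S) :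
    H.ρ.IsUnramifiedAt q := by
  obtain ⟨J, i1, i2, i3, i4, fac, ht⟩ := htower
  obtain ⟨K⟩ := ht.kummer
  exact unramified_of_tower hcheb hp hp𝒪 hpS hNS ht.unram ht.frob ht.smooth ht.periodHecke K H
    q hq hqS

/-- **Gate for S34.** -/
theorem unipotent_of_towerA2At (hcheb : ChebStatement) {q : ℕ} (htower : TowerA2At p N S q)
    (hp : p.Prime) (hp𝒪 : (p : 𝒪) ∈ IsLocalRing.maximalIdeal 𝒪) (hpS : p ∈ S)
    (hNS : ∀ q : ℕ, q.Prime → q ∣ N → q ∈ S)
    (H : CuspForm.HeckeGaloisRepDatum N (↑S : Set ℕ) 𝒪 θ T)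
    (hq : q.Prime) (hqp : q ≠ p) :
    H.ρ.IsUnipotentOnInertiaAt q := by
  obtain ⟨J, i1, i2, i3, i4, fac, ht, hA2⟩ := htower
  obtain ⟨K⟩ := ht.kummer
  exact unipotent_of_tower hcheb hp hp𝒪 hpS hNS ht.frob ht.smooth ht.periodHecke K H q hq hqp hA2

end Fermat.Agent.A2.H493
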