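import Fermat.Agent.A2.H493.Gate
import Fermat.Agent.S30.H450.KumTower
import Fermat.Agent.S30.H709.ParEigen
import Fermat.Agent.S30.H330.AdicDefs
import Fermat.Agent.S29.M1
import Fermat.Agent.S29.M3
import Fermat.Agent.S29.H571.HeckeGalois

/-!
# Cell A2 / route B' (helper493): the tower gate for `J = JZero N`

The gate `TowerAt p N S` of `Gate.lean` is instantiated for `J = JZero N` (Prelude Hecke module
structure `heckeModuleBar N`), from

* `hT : Fermat.Agent.S30.H330.TorsionRelations N p`  (input (T) of row S30, i.e. S37 + S18);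
* `hK : ∀ n, Fermat.Agent.S30.H450.KumPackage N (p ^ n)`  (on main: `S30.Chain.kumPackage`).

Everything else is on main: `S29.heckeOperatorsCommuteBar` (M1), `S29.jZero_smooth` (M3),
`S29.H571.smulCommClass_heckeModuleBar` (M2), `S30.H709.periodHecke_facCoh`.

With the wall A2 on the `p`-power torsion of `JZero N` we get `TowerA2At p N S q`.
-/

set_option autoImplicit false
set_option linter.style.haveILetI false

noncomputable section

namespace Fermat.Agent.A2.H493

open CongruenceSubgroup ModularCurve Fermat.Agent.S30.H709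
open scoped MatrixGroups

variable {N : ℕ}

/-- An integral parabolic character is a parabolic character in the sense of row S29, after
reduction modulo any `m`. -/
theorem isParHom_intCast {c : Gamma0 N → ℤ} (hc : IsParZ c) (m : ℕ) :
    Fermat.Agent.S29.IsParHom (fun γ : Fermat.Agent.S29.G0 N => ((c γ : ℤ) : ZMod m)) where
  map_mul γ γ' := by
    show ((c (γ * γ') : ℤ) : ZMod m) = _
    rw [hc.1 γ γ', Int.cast_add]
  parabolic γ hγ := by
    have htr : ((γ : SL(2, ℤ)) : Matrix (Fin 2) (Fin 2) ℤ).trace ^ 2 = 4 := by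
      rcases hγ with h | h
      · have : ((γ : SL(2, ℤ)) : Matrix (Fin 2) (Fin 2) ℤ).trace = 2 := h
        rw [this]; norm_num
      · have : ((γ : SL(2, ℤ)) : Matrix (Fin 2) (Fin 2) ℤ).trace = -2 := h
        rw [this]; norm_num
    show ((c γ : ℤ) : ZMod m) = 0
    rw [hc.2 γ htr, Int.cast_zero]
  elliptic γ n hn hγ := by
    have hpow : ∀ k : ℕ, c (γ ^ k) = k * c γ := by
      intro k
      induction k with
      | zero =>
        have h1 : c (1 * 1) = c 1 + c 1 := hc.1 1 1
        rw [mul_one] at h1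
        rw [pow_zero, Nat.cast_zero, zero_mul]
        linarith
      | succ k ih => rw [pow_succ, hc.1, ih]; push_cast; ring
    have h := hpow n
    rw [hγ] at h
    have h1 : c 1 = 0 := by
      have h1 : c (1 * 1) = c 1 + c 1 := hc.1 1 1
      rw [mul_one] at h1
      linarith
    rw [h1] at h
    have h0 : c γ = 0 := by
      rcases mul_eq_zero.mp h.symm with h2 | h2
      · exact absurd h2 (by exact_mod_cast hn.ne')
      · exact h2
    show ((c γ : ℤ) : ZMod m) = 0
    rw [h0, Int.cast_zero]

/-- The cohomological Hecke operator commutes with reduction modulo `m`. -/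
theorem heckeCoh_intCast (ℓ : ℕ) (c : Gamma0 N → ℤ) (m : ℕ) :
    (fun γ : Fermat.Agent.S29.G0 N => ((heckeFn (facCoh N) ℓ c γ : ℤ) : ZMod m)) =
      Fermat.Agent.S29.heckeCoh N ℓ (fun γ : Fermat.Agent.S29.G0 N => ((c γ : ℤ) : ZMod m)) := by
  funext γ
  show (((((facCoh N ℓ γ).map c).sum : ℤ)) : ZMod m) = _
  rw [sum_map_facCoh N ℓ c γ]
  unfold Fermat.Agent.S29.heckeCoh
  rw [Int.cast_sum]

variable [NeZero N]

/-- **The Kummer system of `JZero N`** from the Kummer packages at the moduli `p ^ n`. -/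
theorem nonempty_kummerSystem_jZero {p : ℕ} (hp : p.Prime) {S : Set ℕ} (hpS : p ∈ S)
    (hK : ∀ n, Fermat.Agent.S30.H450.KumPackage N (p ^ n)) :
    letI := heckeModuleBar N
    Nonempty (KummerSystem N (facCoh N) S p (JZero N)
      (fun ℓ => opOf (JZero N) (heckeGen ℓ))) := by
  letI := heckeModuleBar N
  haveI : NeZero p := ⟨hp.ne_zero⟩
  obtain ⟨κ, hadd, hinj, hcompat, hhecke⟩ := Fermat.Agent.S30.H450.exists_kummerTower_of hK
  have hcomm := Fermat.Agent.S29.heckeOperatorsCommuteBar N
  refine ⟨{ κ := fun n c => κ n (fun γ => ((c γ : ℤ) : ZMod (p ^ n)))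
            map_add := fun n c c' hc hc' => ?_
            map_zero_level := fun c hc => ?_
            compat := fun n c hc => ?_
            inj := fun c hc h γ => ?_
            hecke := fun n ℓ hℓN hℓS c hc => ?_ }⟩
  · rw [← hadd n _ _ (isParHom_intCast hc _) (isParHom_intCast hc' _)]
    congr 1
    funext γ
    simp only [Pi.add_apply, Int.cast_add]
  · have hsub : Subsingleton (ZMod (p ^ 0)) := by
      rw [pow_zero]; infer_instance
    have h0 : (fun γ : Fermat.Agent.S29.G0 N => ((c γ : ℤ) : ZMod (p ^ 0)))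
        = (fun γ => ((c γ : ℤ) : ZMod (p ^ 0))) + (fun γ => ((c γ : ℤ) : ZMod (p ^ 0))) := by
      funext γ
      exact Subsingleton.elim _ _
    have h1 := hadd 0 _ _ (isParHom_intCast hc (p ^ 0)) (isParHom_intCast hc (p ^ 0))
    rw [← h0] at h1
    exact left_eq_add.mp h1
  · have h := hcompat n _ (isParHom_intCast hc (p ^ (n + 1)))
    rw [natCast_zsmul] at h
    rw [h]
    congr 1
    funext γ
    rw [map_intCast]
  · have h1 := hinj 1 _ (isParHom_intCast hc (p ^ 1)) h
    have h2 : ((c γ : ℤ) : ZMod (p ^ 1)) = 0 := congrFun h1 γ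
    have h3 := (ZMod.intCast_zmod_eq_zero_iff_dvd (c γ) (p ^ 1)).mp h2
    rwa [pow_one] at h3
  · have hℓNp : ¬ (ℓ : ℕ) ∣ N * p := by
      intro hd
      rcases (Nat.Prime.dvd_mul ℓ.2).1 hd with h | h
      · exact hℓN h
      · exact hℓS (by rw [(Nat.prime_dvd_prime_iff_eq ℓ.2 hp).1 h]; exact hpS)
    show heckeGen ℓ • κ n (fun γ => ((c γ : ℤ) : ZMod (p ^ n))) = _
    rw [heckeModuleBar_heckeGen_smul hcomm, ← hhecke ℓ hℓNp n _ (isParHom_intCast hc _),
      ← heckeCoh_intCast]

/-- (T) gives the two local clauses of the Prelude for `JZero N`. -/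
theorem unramifiedOutside_jZero {p : ℕ} (hT : Fermat.Agent.S30.H330.TorsionRelations N p) :
    letI := heckeModuleBar N
    haveI := Fermat.Agent.S29.H571.smulCommClass_heckeModuleBar N
    UnramifiedOutside (K := ℚ) (L := AlgebraicClosure ℚ) N p (JZero N) := by
  letI := heckeModuleBar N
  haveI := Fermat.Agent.S29.H571.smulCommClass_heckeModuleBar N
  intro ℓ hℓ hℓNp A hA σ hσ x hx
  exact (hT ℓ hℓ hℓNp A hA).1 σ hσ x hx

theorem frobeniusQuadratic_jZero {p : ℕ} (hT : Fermat.Agent.S30.H330.TorsionRelations N p) :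
    letI := heckeModuleBar N
    haveI := Fermat.Agent.S29.H571.smulCommClass_heckeModuleBar N
    FrobeniusQuadratic (K := ℚ) (L := AlgebraicClosure ℚ) N p (JZero N) := by
  letI := heckeModuleBar N
  haveI := Fermat.Agent.S29.H571.smulCommClass_heckeModuleBar N
  intro ℓ hℓ hℓNp A hA σ hσ x hx
  have h := (hT ℓ hℓ hℓNp A hA).2 σ hσ x hx
  have e := heckeModuleBar_heckeGen_smul (Fermat.Agent.S29.heckeOperatorsCommuteBar N)
    ⟨ℓ, hℓ⟩ (σ • x)
  exact (congrArg (fun y => σ • σ • x - y + ℓ • x) e).trans h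

/-- **The tower interface holds for `JZero N`**, from (T) and the Kummer packages. -/
theorem isTower_jZero {p : ℕ} (hp : p.Prime) {S : Finset ℕ} (hpS : p ∈ S)
    (hT : Fermat.Agent.S30.H330.TorsionRelations N p)
    (hK : ∀ n, Fermat.Agent.S30.H450.KumPackage N (p ^ n)) :
    letI := heckeModuleBar N
    haveI := Fermat.Agent.S29.H571.smulCommClass_heckeModuleBar N
    IsTower p N S (JZero N) (facCoh N) := by
  letI := heckeModuleBar N
  haveI := Fermat.Agent.S29.H571.smulCommClass_heckeModuleBar N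
  exact
    { unram := unramifiedOutside_jZero hT
      frob := frobeniusQuadratic_jZero hT
      smooth := fun x _ => Fermat.Agent.S29.jZero_smooth N x
      periodHecke := periodHecke_facCoh N
      kummer := nonempty_kummerSystem_jZero hp (S := (↑S : Set ℕ)) (by exact_mod_cast hpS) hK }

/-- **Gate `TowerAt`**, from (T) and the Kummer packages. -/
theorem towerAt_of_torsionRelations {p : ℕ} (hp : p.Prime) {S : Finset ℕ} (hpS : p ∈ S)
    (hT : Fermat.Agent.S30.H330.TorsionRelations N p)
    (hK : ∀ n, Fermat.Agent.S30.H450.KumPackage N (p ^ n)) :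
    TowerAt p N S :=
  ⟨JZero N, inferInstance, heckeModuleBar N, inferInstance,
    Fermat.Agent.S29.H571.smulCommClass_heckeModuleBar N, facCoh N, isTower_jZero hp hpS hT hK⟩

/-- **Gate `TowerA2At`**, from (T), the Kummer packages and the wall A2 on the `p`-power torsion
of `JZero N`. -/
theorem towerA2At_of_torsionRelations {p q : ℕ} (hp : p.Prime) {S : Finset ℕ} (hpS : p ∈ S)
    (hT : Fermat.Agent.S30.H330.TorsionRelations N p)
    (hK : ∀ n, Fermat.Agent.S30.H450.KumPackage N (p ^ n))
    (hA2 : IsWallA2 p q (JZero N)) :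
    TowerA2At p N S q :=
  ⟨JZero N, inferInstance, heckeModuleBar N, inferInstance,
    Fermat.Agent.S29.H571.smulCommClass_heckeModuleBar N, facCoh N,
    isTower_jZero hp hpS hT hK, hA2⟩

end Fermat.Agent.A2.H493
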