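import Fermat.Agent.A2.H493.Core
import Fermat.Agent.S34.H193.Glue
import Fermat.Agent.S31.H202.PieceA

/-!
# Cell A2 / route B' (helper493): S34 and S31 directly from the finite-level tower

`J` is a `HeckeAlg`-module with a commuting action of `G_ℚ` (in the application `JZero N`).
The **tower interface** is the one already consumed by row S30 (`Fermat.Agent.S30.H349`,
`Fermat.Agent.S30.H709`):

* `hfrob : FrobeniusQuadratic N p J`, `hunr : UnramifiedOutside N p J` (outputs of S37),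
* `hsm` : smoothness of the Galois action on `p`-power torsion,
* `hPH : PeriodHecke N fac`, `K : KummerSystem N fac S p J T_ℓ`.

Results (for ANY Hecke–Galois datum `H` of level `N` away from `S`):

* `unipotent_of_tower` : if every `τ` in an inertia group at `q` satisfies `(τ - 1)² = 0` on the
  `p`-power torsion of `J` (this is exactly the wall A2, `Fermat.Agent.A2.H129`), then `H.ρ` is
  unipotent on inertia at `q` (= conclusion of the frozen statement S34);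
* `unramified_of_tower` : `H.ρ` is unramified outside `S` (= conclusion of the frozen S31).

Neither S30, nor `p`-adic points / PTS, nor the Petersson product is used: the congruences
between Hecke elements are obtained inside the Hecke algebra by FAITH (`Faith.lean`).
The only other inputs are CHEB Tier 1 (`ChebStatement`, on main) and, for S31, the trace
criterion (piece A of row S31, on main).
-/

set_option autoImplicit false
set_option linter.unusedSectionVars false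

noncomputable section

open Polynomial

namespace Fermat.Agent.A2.H493

open CongruenceSubgroup ModularCurve Fermat.Agent.S30.H709 Fermat.Agent.S31
open scoped MatrixGroups

variable {p : ℕ} {N : ℕ} [NeZero N] {S : Finset ℕ}
  {𝒪 : Type} [CommRing 𝒪] [IsDomain 𝒪] [IsDiscreteValuationRing 𝒪]
  [IsAdicComplete (IsLocalRing.maximalIdeal 𝒪) 𝒪]
  {θ : CuspForm.heckeAlgebra N 2 (↑S : Set ℕ) →+* IsLocalRing.ResidueField 𝒪}
  {T : Type} [CommRing T] [IsLocalRing T] [IsNoetherianRing T]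
  [IsAdicComplete (IsLocalRing.maximalIdeal T) T] [Algebra 𝒪 T] [IsLocalHom (algebraMap 𝒪 T)]
  [Module.Finite 𝒪 T] [Module.Free 𝒪 T]
  {fac : ℕ → Gamma0 N → Multiset (Gamma0 N)}
  {J : Type*} [AddCommGroup J] [Module HeckeAlg J] [DistribMulAction GQ J]
  [SMulCommClass GQ HeckeAlg J]

/-- `p` lies in the maximal ideal of `T`. -/
theorem natCast_mem_maximalIdeal (hp𝒪 : (p : 𝒪) ∈ IsLocalRing.maximalIdeal 𝒪) :
    (p : T) ∈ IsLocalRing.maximalIdeal T := by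
  have h1 : (p : T) = algebraMap 𝒪 T (p : 𝒪) := by simp
  rw [h1, IsLocalRing.mem_maximalIdeal, mem_nonunits_iff]
  intro hu
  exact (IsLocalRing.mem_maximalIdeal _).mp hp𝒪 (isUnit_of_map_unit (algebraMap 𝒪 T) _ hu)

/-- Krull's intersection theorem in the form used below. -/
theorem eq_zero_of_forall_mem_pow {A : Type*} [CommRing A] [IsLocalRing A] [IsNoetherianRing A]
    (a : A) (h : ∀ n : ℕ, a ∈ IsLocalRing.maximalIdeal A ^ n) : a = 0 := by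
  have hK : (⨅ n, IsLocalRing.maximalIdeal A ^ n) = ⊥ :=
    Ideal.iInf_pow_eq_bot_of_isLocalRing _ (Ideal.IsMaximal.ne_top inferInstance)
  have h1 : a ∈ ⨅ n, IsLocalRing.maximalIdeal A ^ n := by
    rw [Ideal.mem_iInf]; exact h
  rw [hK] at h1
  simpa using h1

/-! ### S34 -/

/-- trace `= 2` and determinant `= 1` for `τ` in an inertia group away from `p` acting
unipotently (`(τ - 1)² = 0`) on the `p`-power torsion of `J`. -/
theorem trace_det_of_tower (hcheb : ChebStatement) (hp : p.Prime)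
    (hp𝒪 : (p : 𝒪) ∈ IsLocalRing.maximalIdeal 𝒪) (hpS : p ∈ S)
    (hNS : ∀ q : ℕ, q.Prime → q ∣ N → q ∈ S)
    (hfrob : FrobeniusQuadratic (K := ℚ) (L := AlgebraicClosure ℚ) N p J)
    (hsm : ∀ x : J, (∃ n : ℕ, p ^ n • x = 0) →
      ∃ L : IntermediateField ℚ (AlgebraicClosure ℚ), FiniteDimensional ℚ L ∧
        ∀ σ : GQ, (∀ y ∈ L, σ y = y) → σ • x = x)
    (hPH : PeriodHecke N fac)
    (K : KummerSystem N fac (↑S : Set ℕ) p J (fun ℓ => opOf J (heckeGen ℓ)))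
    (H : CuspForm.HeckeGaloisRepDatum N (↑S : Set ℕ) 𝒪 θ T)
    (τ : GQ) (hτ : IsInertialAway p τ)
    (hτ2 : ∀ x : J, (∃ n : ℕ, p ^ n • x = 0) → τ • (τ • x - x) = τ • x - x) :
    H.ρ.trace τ = 2 ∧ LinearMap.det (H.ρ.ρ τ) = 1 := by
  have hNS' : ∀ q : ℕ, q.Prime → q ∣ N → q ∈ (↑S : Set ℕ) :=
    fun q hq hqN => Finset.mem_coe.mpr (hNS q hq hqN)
  have hpT : (p : T) ∈ IsLocalRing.maximalIdeal T := natCast_mem_maximalIdeal hp𝒪
  suffices h : ∀ n : ℕ, H.ρ.trace τ - 2 ∈ IsLocalRing.maximalIdeal T ^ n ∧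
      LinearMap.det (H.ρ.ρ τ) - 1 ∈ IsLocalRing.maximalIdeal T ^ n from
    ⟨sub_eq_zero.mp (eq_zero_of_forall_mem_pow _ fun n => (h n).1),
      sub_eq_zero.mp (eq_zero_of_forall_mem_pow _ fun n => (h n).2)⟩
  intro n
  obtain ⟨E₁, hE₁fin, hE₁⟩ :=
    exists_field_unipotent hp hpS hNS' hfrob hsm hPH K n τ hτ hτ2
  obtain ⟨L₀, hL₀fin, hL₀⟩ := Fermat.Agent.S34.H193.trace_det_congr_of_agree H.ρ n
  have hEfin : FiniteDimensional ℚ ↥(L₀ ⊔ E₁) := IntermediateField.finiteDimensional_sup _ _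
  obtain ⟨ℓ, B, σ, k, j, hℓ, hℓS, hB, hσ, -, -, hj⟩ := hcheb (L₀ ⊔ E₁) hEfin τ S
  have hℓN : ¬ ℓ ∣ N := fun h => hℓS (hNS ℓ hℓ h)
  have hℓS1 : ℓ ∉ (↑S : Set ℕ) := fun h => hℓS (Finset.mem_coe.mp h)
  have hfc : Fermat.Agent.S34.H193.FrobCond H.ρ H.π := fun ℓ hℓ hℓN hℓS B hB σ hσ =>
    H.charpoly_frob ℓ hℓ hℓN hℓS B hB σ hσ
  obtain ⟨e1, e2⟩ := Fermat.Agent.S34.H193.trace_det_sub_hecke_mem H.ρ H.π hfc n L₀ hL₀ τ
    hℓ hℓN hℓS1 B hB σ hσ j (fun x hx => hj x ((le_sup_left : L₀ ≤ L₀ ⊔ E₁) hx))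
  obtain ⟨⟨y, hy⟩, hdvd⟩ := hE₁ hℓ hℓN hℓS1 B hB σ hσ j
    (fun x hx => hj x ((le_sup_right : E₁ ≤ L₀ ⊔ E₁) hx))
  have hpn : ((p ^ n : ℕ) : T) ∈ IsLocalRing.maximalIdeal T ^ n := by
    rw [Nat.cast_pow]
    exact Ideal.pow_mem_pow hpT n
  have hπ1 : H.π (Fermat.Agent.S34.H193.heckePow hℓ hℓN hℓS1 j - 2)
      ∈ IsLocalRing.maximalIdeal T ^ n := by
    have : Fermat.Agent.S34.H193.heckePow hℓ hℓN hℓS1 j - 2 = p ^ n • y := hy
    rw [this, map_nsmul, nsmul_eq_mul]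
    exact Ideal.mul_mem_right _ _ hpn
  have hπ2 : H.π ((ℓ : CuspForm.heckeAlgebra N 2 (↑S : Set ℕ)) ^ j - 1)
      ∈ IsLocalRing.maximalIdeal T ^ n := by
    obtain ⟨a, ha⟩ := hdvd
    have h1 : H.π ((ℓ : CuspForm.heckeAlgebra N 2 (↑S : Set ℕ)) ^ j - 1)
        = (((ℓ : ℤ) ^ j - 1 : ℤ) : T) := by
      push_cast
      rw [map_sub, map_pow, map_natCast, map_one]
    rw [h1, ha]
    push_cast
    rw [← Nat.cast_pow]
    exact Ideal.mul_mem_right _ _ hpn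
  constructor
  · have : H.ρ.trace τ - 2 =
        (H.ρ.trace τ - H.π (Fermat.Agent.S34.H193.heckePow hℓ hℓN hℓS1 j))
          + H.π (Fermat.Agent.S34.H193.heckePow hℓ hℓN hℓS1 j - 2) := by
      rw [map_sub, map_ofNat]; ring
    rw [this]
    exact Ideal.add_mem _ e1 hπ1
  · have : LinearMap.det (H.ρ.ρ τ) - 1 =
        (LinearMap.det (H.ρ.ρ τ) - H.π ((ℓ : CuspForm.heckeAlgebra N 2 (↑S : Set ℕ)) ^ j)) +
          H.π ((ℓ : CuspForm.heckeAlgebra N 2 (↑S : Set ℕ)) ^ j - 1) := by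
      rw [map_sub, map_one]; ring
    rw [this]
    exact Ideal.add_mem _ e2 hπ2

/-- **S34 from the finite-level tower and the wall A2.**  `hA2` is the statement delivered by
cell A2: inertia at `q` acts on the `p`-power torsion of `J` with `(τ - 1)² = 0`. -/
theorem unipotent_of_tower (hcheb : ChebStatement) (hp : p.Prime)
    (hp𝒪 : (p : 𝒪) ∈ IsLocalRing.maximalIdeal 𝒪) (hpS : p ∈ S)
    (hNS : ∀ q : ℕ, q.Prime → q ∣ N → q ∈ S)
    (hfrob : FrobeniusQuadratic (K := ℚ) (L := AlgebraicClosure ℚ) N p J)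
    (hsm : ∀ x : J, (∃ n : ℕ, p ^ n • x = 0) →
      ∃ L : IntermediateField ℚ (AlgebraicClosure ℚ), FiniteDimensional ℚ L ∧
        ∀ σ : GQ, (∀ y ∈ L, σ y = y) → σ • x = x)
    (hPH : PeriodHecke N fac)
    (K : KummerSystem N fac (↑S : Set ℕ) p J (fun ℓ => opOf J (heckeGen ℓ)))
    (H : CuspForm.HeckeGaloisRepDatum N (↑S : Set ℕ) 𝒪 θ T)
    (q : ℕ) (hq : q.Prime) (hqp : q ≠ p)
    (hA2 : ∀ B : ValuationSubring (AlgebraicClosure ℚ), B.LiesOverPrime q →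
      ∀ τ ∈ B.inertiaSubgroupIn ℚ, ∀ x : J, (∃ n : ℕ, p ^ n • x = 0) →
        τ • (τ • x - x) = τ • x - x) :
    H.ρ.IsUnipotentOnInertiaAt q := by
  intro P hP τ hτ
  obtain ⟨h1, h2⟩ := trace_det_of_tower hcheb hp hp𝒪 hpS hNS hfrob hsm hPH K H τ
    ⟨q, hq, hqp, P, hP, hτ⟩ (hA2 P hP τ hτ)
  rw [Fermat.Agent.S34.H193.charpoly_eq_of_finrank_two H.ρ.finrank_eq,
    Fermat.Agent.S34.H193.sub_one_sq_eq]
  have h1' : LinearMap.trace T H.ρ.V (H.ρ.ρ τ) = 2 := h1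
  rw [h1', h2]

/-! ### S31 -/

/-- traces are invariant under right multiplication by an element of an inertia group away from
`p` which acts trivially on the `p`-power torsion of `J`. -/
theorem trace_mul_of_tower (hcheb : ChebStatement) (hp : p.Prime)
    (hp𝒪 : (p : 𝒪) ∈ IsLocalRing.maximalIdeal 𝒪) (hpS : p ∈ S)
    (hNS : ∀ q : ℕ, q.Prime → q ∣ N → q ∈ S)
    (hfrob : FrobeniusQuadratic (K := ℚ) (L := AlgebraicClosure ℚ) N p J)
    (hsm : ∀ x : J, (∃ n : ℕ, p ^ n • x = 0) →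
      ∃ L : IntermediateField ℚ (AlgebraicClosure ℚ), FiniteDimensional ℚ L ∧
        ∀ σ : GQ, (∀ y ∈ L, σ y = y) → σ • x = x)
    (hPH : PeriodHecke N fac)
    (K : KummerSystem N fac (↑S : Set ℕ) p J (fun ℓ => opOf J (heckeGen ℓ)))
    (H : CuspForm.HeckeGaloisRepDatum N (↑S : Set ℕ) 𝒪 θ T)
    (τ : GQ) (hτ : IsInertialAway p τ)
    (hτ1 : ∀ x : J, (∃ n : ℕ, p ^ n • x = 0) → τ • x = x) (g : GQ) :
    H.ρ.trace (g * τ) = H.ρ.trace g := by
  have hNS' : ∀ q : ℕ, q.Prime → q ∣ N → q ∈ (↑S : Set ℕ) :=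
    fun q hq hqN => Finset.mem_coe.mpr (hNS q hq hqN)
  have hpT : (p : T) ∈ IsLocalRing.maximalIdeal T := natCast_mem_maximalIdeal hp𝒪
  rw [← sub_eq_zero]
  refine eq_zero_of_forall_mem_pow _ fun n => ?_
  obtain ⟨E₁, hE₁fin, hE₁⟩ :=
    exists_field_unramified hp hpS hNS' hfrob hsm hPH K n g τ hτ hτ1
  obtain ⟨L₀, hL₀fin, hL₀⟩ := Fermat.Agent.S34.H193.trace_det_congr_of_agree H.ρ n
  have hEfin : FiniteDimensional ℚ ↥(L₀ ⊔ E₁) := IntermediateField.finiteDimensional_sup _ _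
  obtain ⟨ℓ, B, σ, k, j, hℓ, hℓS, hB, hσ, -, -, hj⟩ := hcheb (L₀ ⊔ E₁) hEfin g S
  obtain ⟨ℓ', B', σ', k', j', hℓ', hℓS', hB', hσ', -, -, hj'⟩ :=
    hcheb (L₀ ⊔ E₁) hEfin (g * τ) S
  have hℓN : ¬ ℓ ∣ N := fun h => hℓS (hNS ℓ hℓ h)
  have hℓN' : ¬ ℓ' ∣ N := fun h => hℓS' (hNS ℓ' hℓ' h)
  have hℓS1 : ℓ ∉ (↑S : Set ℕ) := fun h => hℓS (Finset.mem_coe.mp h)
  have hℓS1' : ℓ' ∉ (↑S : Set ℕ) := fun h => hℓS' (Finset.mem_coe.mp h)
  have hfc : Fermat.Agent.S34.H193.FrobCond H.ρ H.π := fun ℓ hℓ hℓN hℓS B hB σ hσ =>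
    H.charpoly_frob ℓ hℓ hℓN hℓS B hB σ hσ
  obtain ⟨e1, -⟩ := Fermat.Agent.S34.H193.trace_det_sub_hecke_mem H.ρ H.π hfc n L₀ hL₀ g
    hℓ hℓN hℓS1 B hB σ hσ j (fun x hx => hj x ((le_sup_left : L₀ ≤ L₀ ⊔ E₁) hx))
  obtain ⟨e2, -⟩ := Fermat.Agent.S34.H193.trace_det_sub_hecke_mem H.ρ H.π hfc n L₀ hL₀ (g * τ)
    hℓ' hℓN' hℓS1' B' hB' σ' hσ' j' (fun x hx => hj' x ((le_sup_left : L₀ ≤ L₀ ⊔ E₁) hx))
  obtain ⟨y, hy⟩ := hE₁ hℓ hℓN hℓS1 B hB σ hσ j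
    (fun x hx => hj x ((le_sup_right : E₁ ≤ L₀ ⊔ E₁) hx))
    hℓ' hℓN' hℓS1' B' hB' σ' hσ' j' (fun x hx => hj' x ((le_sup_right : E₁ ≤ L₀ ⊔ E₁) hx))
  have hpn : ((p ^ n : ℕ) : T) ∈ IsLocalRing.maximalIdeal T ^ n := by
    rw [Nat.cast_pow]
    exact Ideal.pow_mem_pow hpT n
  have hπ : H.π (Fermat.Agent.S34.H193.heckePow hℓ hℓN hℓS1 j
      - Fermat.Agent.S34.H193.heckePow hℓ' hℓN' hℓS1' j') ∈ IsLocalRing.maximalIdeal T ^ n := by
    have : Fermat.Agent.S34.H193.heckePow hℓ hℓN hℓS1 j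
      - Fermat.Agent.S34.H193.heckePow hℓ' hℓN' hℓS1' j' = p ^ n • y := hy
    rw [this, map_nsmul, nsmul_eq_mul]
    exact Ideal.mul_mem_right _ _ hpn
  have : H.ρ.trace (g * τ) - H.ρ.trace g =
      (H.ρ.trace (g * τ) - H.π (Fermat.Agent.S34.H193.heckePow hℓ' hℓN' hℓS1' j')) -
      (H.ρ.trace g - H.π (Fermat.Agent.S34.H193.heckePow hℓ hℓN hℓS1 j)) -
      H.π (Fermat.Agent.S34.H193.heckePow hℓ hℓN hℓS1 j
        - Fermat.Agent.S34.H193.heckePow hℓ' hℓN' hℓS1' j') := by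
    rw [map_sub]; ring
  rw [this]
  exact Ideal.sub_mem _ (Ideal.sub_mem _ e2 e1) hπ

/-- **S31 from the finite-level tower.** -/
theorem unramified_of_tower (hcheb : ChebStatement) (hp : p.Prime)
    (hp𝒪 : (p : 𝒪) ∈ IsLocalRing.maximalIdeal 𝒪) (hpS : p ∈ S)
    (hNS : ∀ q : ℕ, q.Prime → q ∣ N → q ∈ S)
    (hunr : UnramifiedOutside (K := ℚ) (L := AlgebraicClosure ℚ) N p J)
    (hfrob : FrobeniusQuadratic (K := ℚ) (L := AlgebraicClosure ℚ) N p J)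
    (hsm : ∀ x : J, (∃ n : ℕ, p ^ n • x = 0) →
      ∃ L : IntermediateField ℚ (AlgebraicClosure ℚ), FiniteDimensional ℚ L ∧
        ∀ σ : GQ, (∀ y ∈ L, σ y = y) → σ • x = x)
    (hPH : PeriodHecke N fac)
    (K : KummerSystem N fac (↑S : Set ℕ) p J (fun ℓ => opOf J (heckeGen ℓ)))
    (H : CuspForm.HeckeGaloisRepDatum N (↑S : Set ℕ) 𝒪 θ T)
    (q : ℕ) (hq : q.Prime) (hqS : q ∉ S) :
    H.ρ.IsUnramifiedAt q := by
  intro P hP τ hτ
  have hqp : q ≠ p := fun h => hqS (h ▸ hpS)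
  have hqN : ¬ q ∣ N := fun h => hqS (hNS q hq h)
  have hqNp : ¬ q ∣ N * p := by
    intro h
    rcases (Nat.Prime.dvd_mul hq).1 h with h | h
    · exact hqN h
    · exact hqp ((Nat.prime_dvd_prime_iff_eq hq hp).1 h)
  refine Fermat.Agent.S31.H202.trace_criterion H.ρ H.residual_absIrr τ fun g => ?_
  exact trace_mul_of_tower hcheb hp hp𝒪 hpS hNS hfrob hsm hPH K H τ ⟨q, hq, hqp, P, hP, hτ⟩
    (fun x hx => hunr q hq hqNp P hP τ hτ x hx) g

end Fermat.Agent.A2.H493
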